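import Fermat.Agent.LoweringAtP.Model.Rational
import Fermat.Agent.LoweringAtP.Setup.Rational

/-!
# The rational structure of the model over the inertia field

`K₀ = ℚ̄^I`, `F₀ =` functions of level `M q` with coefficients in `K₀`, `ϖ = q`, `e = 1`.
-/

noncomputable section

open ModularCurve AlgebraicCurve IntermediateField Fermat.Agent.Red Fermat.Agent.Igusa
  Fermat.Agent.TwoComponent

namespace Fermat.Agent.LoweringAtP.Model

local notation "Qb" => AlgebraicClosure ℚ

variable {M q : ℕ} [hq : Fact q.Prime] [NeZero M] {hqM : ¬ q ∣ M}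
variable {A : ValuationSubring (AlgebraicClosure ℚ)} {k : Type*} [Field k] {π : A →+* k}
variable [CharP k q] [IsAlgClosed k] {hres : ResidueAt A q π}
variable {hgen : genusFF Qb (modularFunctionFieldBar M) ≤ genusFF k (CK M k)}
variable (Ud : UnitData (modelTwoRed M q hqM hres hgen)) (hη : ((Ud.η : A) : Qb) = (q : Qb))

/-- **The rational data of the model.** -/
def modelRatData : RatData Ud where
  K₀ := PeuRamifie.inertiaField A
  F₀ := ratField M q A
  const_mem a ha := algebraMap_mem_fixedFns fun σ hσ => ha σ hσ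
  ϖ := (q : A)
  ϖ_mem := by
    rw [show ((q : A) : Qb) = (q : Qb) from map_natCast A.subtype q]
    exact natCast_mem _ q
  ϖ_ne := by
    rw [show ((q : A) : Qb) = (q : Qb) from map_natCast A.subtype q]
    exact Nat.cast_ne_zero.mpr hq.out.ne_zero
  π_ϖ := by rw [map_natCast, CharP.cast_eq_zero]
  lift r := PeuRamifie.exists_lift hq.out (liesOverPrime_of_residueAt hres) π hres.surj r
  e := 1
  e_pos := Nat.one_pos
  ε := 1
  π_ε := by rw [map_one]; exact one_ne_zero
  η_eq := by
    rw [hη, OneMemClass.coe_one, one_mul, pow_one]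
    exact (map_natCast A.subtype q).symm
  scale u hu h0 i := by
    obtain ⟨j, v, hv, e⟩ := exists_zpow_scale_redC hqM hres hu h0 i
    refine ⟨j, v, hv, ?_⟩
    rw [show ((q : A) : Qb) = (q : Qb) from map_natCast A.subtype q]
    exact e.symm

/-- The rational functions are those with coefficients fixed by inertia. -/
theorem mem_F₀_iff {u : FN M q} :
    u ∈ (modelRatData Ud hη).F₀ ↔ Setup.CoeffFixed (A.inertiaSubgroupIn ℚ) u :=
  (mem_fixedFns_iff_coeff (H := (A.inertiaSubgroupIn ℚ : Set (Qb ≃ₐ[ℚ] Qb)))).trans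
    ⟨fun h σ hσ n => h n σ hσ, fun h n σ hσ => h σ hσ n⟩

/-- The coordinate of the model has coefficients fixed by every subgroup. -/
theorem coeffFixed_x (H : Subgroup (Qb ≃ₐ[ℚ] Qb)) :
    Setup.CoeffFixed H (modelTwoRed M q hqM hres hgen).x := fun σ hσ n =>
  mem_fixedFns_iff_coeff.mp (xN_mem_fixedFns (H := (H : Set (Qb ≃ₐ[ℚ] Qb)))) n σ hσ

end Fermat.Agent.LoweringAtP.Model
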