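import Fermat.Agent.LoweringAtP.Model.UnitOrders
import Fermat.Agent.LoweringAtP.Node

/-!
# The modular unit as unit datum of the two-component model of `X₀(M q)`

`η = q`, `κ = 12`, `U = Δ(τ)/Δ(qτ)`.
-/

noncomputable section

open ModularCurve AlgebraicCurve IntermediateField Fermat.Agent.Red Fermat.Agent.Igusa
  Fermat.Agent.TwoComponent

namespace Fermat.Agent.LoweringAtP.Model

local notation "Qb" => AlgebraicClosure ℚ

variable (M q : ℕ) [hq : Fact q.Prime] [NeZero M] (hqM : ¬ q ∣ M)
variable {A : ValuationSubring (AlgebraicClosure ℚ)} {k : Type*} [Field k] {π : A →+* k}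
variable [CharP k q] [IsAlgClosed k] (hres : ResidueAt A q π)
variable (hgen : genusFF Qb (modularFunctionFieldBar M) ≤ genusFF k (CK M k)) (hell : NoEll M)

/-- The unit on the two components, scaled. -/
def unitScaled : ∀ i, (redC M q hqM hres i).O
  | false => ⟨unitFN M q, unitFN_mem_O M q hqM hres false⟩
  | true => ⟨algebraMap Qb (FN M q) ((q : Qb) ^ 12)⁻¹ * unitFN M q,
      (red_true_unitFN M q hqM hres).1⟩

theorem red_unitScaled_true :
    (redC M q hqM hres true).red (unitScaled M q hqM hres true) =
      (unitBarC M q hqM hres)⁻¹ :=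
  Subtype.ext (((red_true_unitFN M q hqM hres).2).trans
    (by rw [IntermediateField.coe_inv, coe_unitBarC]))

/-- A node is a supersingular point paired with its Frobenius translate. -/
theorem node_mem (s : Node M q hqM hres hgen) :
    (s : Place k (CK M k) × Place k (CK M k)).1 ∈ (graphAlg M q hqM hres hgen).nodeSet ∧
      (s : Place k (CK M k) × Place k (CK M k)).2 =
        frobC M q (k := k) • (s : Place k (CK M k) × Place k (CK M k)).1 := by
  obtain ⟨y, hy, e⟩ := (mem_nodesC M q hqM hres hgen).mp s.2
  rw [← e]
  exact ⟨hy, rfl⟩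

/-- **The unit datum of the model.** -/
def modelUnitData : UnitData (modelTwoRed M q hqM hres hgen) where
  η := (q : A)
  η_ne := by
    rw [show ((q : A) : Qb) = (q : Qb) from map_natCast A.subtype q]
    exact Nat.cast_ne_zero.mpr hq.out.ne_zero
  π_η := by rw [map_natCast, CharP.cast_eq_zero]
  κ := 12
  κ_pos := by norm_num
  U := unitFN M q
  U_ne := unitFN_ne_zero M q
  ord_U P hP := by
    refine ord_unitFN M q ((FF.mem_iff_ord_nonneg P).mpr ?_)
    rw [show (modelTwoRed M q hqM hres hgen).G = FF.poleDiv (K := Qb) (xN M q) from rfl,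
      FF.poleDiv_apply] at hP
    omega
  v := unitScaled M q hqM hres
  v_false := rfl
  v_true := by
    show algebraMap Qb (FN M q) (((q : A) : Qb) ^ 12) *
      (algebraMap Qb (FN M q) ((q : Qb) ^ 12)⁻¹ * unitFN M q) = unitFN M q
    rw [show ((q : A) : Qb) = (q : Qb) from map_natCast A.subtype q, ← mul_assoc, ← map_mul,
      mul_inv_cancel₀ (pow_ne_zero _ (Nat.cast_ne_zero.mpr hq.out.ne_zero)), map_one, one_mul]
  red_ne i := by
    cases i
    · exact unitBarC_ne_zero M q hqM hres
    · exact fun h => inv_ne_zero (unitBarC_ne_zero M q hqM hres)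
        ((red_unitScaled_true M q hqM hres).symm.trans h)
  ord_false s := by
    show (s : Place k (CK M k) × Place k (CK M k)).1.ord (unitBarC M q hqM hres) = _
    exact_mod_cast ord_unitBarC_node M q hqM hres hgen hell (node_mem M q hqM hres hgen s).1
  ord_true s := by
    show (s : Place k (CK M k) × Place k (CK M k)).2.ord
      ((redC M q hqM hres true).red (unitScaled M q hqM hres true)) = _
    obtain ⟨h1, h2⟩ := node_mem M q hqM hres hgen s
    rw [red_unitScaled_true, Place.ord_inv, h2,
      ord_unitBarC_node_image M q hqM hres hgen hell h1]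
    norm_num

theorem modelUnitData_η : (((modelUnitData M q hqM hres hgen hell).η : A) : Qb) = (q : Qb) :=
  map_natCast A.subtype q

/-- The series of the reduced unit at infinity. -/
theorem coe_red_v_false :
    ((((modelTwoRed M q hqM hres hgen).R false).red
      ((modelUnitData M q hqM hres hgen hell).v false) : CK M k) : LaurentSeries k) =
      HeckeCompat.unitSer k q :=
  coe_unitBarC M q hqM hres

/-- Off the nodes and the poles of `j̄` the reduced unit has order zero. -/
theorem ord_red_v_false {b : Place k (CK M k)}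
    (hb : (xbC M q : CK M k) ∈ b.toValuationSubring)
    (hn : ∀ s, (modelTwoRed M q hqM hres hgen).br s false ≠ b) :
    b.ord (((modelTwoRed M q hqM hres hgen).R false).red
      ((modelUnitData M q hqM hres hgen hell).v false)) = 0 := by
  refine ord_unitBarC_of_not_node M q hqM hres hgen hb fun h => ?_
  exact hn ⟨_, (mem_nodesC M q hqM hres hgen).mpr ⟨b, h, rfl⟩⟩ rfl

end Fermat.Agent.LoweringAtP.Model
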