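import Fermat.Agent.LoweringAtP.Model.NormSide
import Fermat.Agent.LoweringAtP.Model.Unit
import Fermat.Agent.LoweringAtP.Setup.Main

/-!
# The model inputs of level lowering at `p`

The unit, the rational structure and the two norm sides of the model of `X₀(M q)` at `q`, assembled
for a level `M` without elliptic points.
-/

noncomputable section

open ModularCurve AlgebraicCurve IntermediateField Fermat.Agent.Red Fermat.Agent.Igusa
  Fermat.Agent.TwoComponent

namespace Fermat.Agent.LoweringAtP.Model

local notation "Qb" => AlgebraicClosure ℚ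

variable (M q : ℕ) [hq : Fact q.Prime] [NeZero M] (hqM : ¬ q ∣ M)
variable {A : ValuationSubring (AlgebraicClosure ℚ)} {k : Type*} [Field k] {π : A →+* k}
variable [CharP k q] [IsAlgClosed k] (hres : ResidueAt A q π)
variable (hgen : genusFF Qb (modularFunctionFieldBar M) ≤ genusFF k (CK M k)) (hell : NoEll M)

theorem alpha_eq_inclM : heckeAlphaBar Qb M q = inclM M q :=
  AlgHom.ext fun a => (inclM_eq_alpha M q a).symm

theorem beta_eq_wAL_inclM : heckeBetaBar Qb M q = (wAL M q hqM).toAlgHom.comp (inclM M q) :=
  AlgHom.ext fun a => by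
    rw [← wAL_alpha M q hqM, ← inclM_eq_alpha]
    rfl

include hell in
/-- The model inputs at level `M q`. -/
def modelInputs : Setup.ModelInputs q M hqM hres hgen where
  Ud := modelUnitData M q hqM hres hgen hell
  η_eq := modelUnitData_η M q hqM hres hgen hell
  Q₀ := modelRatData (modelUnitData M q hqM hres hgen hell) (modelUnitData_η M q hqM hres hgen hell)
  e_eq := rfl
  K₀_eq := rfl
  mem_F₀ _ := mem_F₀_iff (modelUnitData M q hqM hres hgen hell)
    (modelUnitData_η M q hqM hres hgen hell)
  nonempty := nonempty_node M q hqM hres hgen hell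
  red_v_false := coe_red_v_false M q hqM hres hgen hell
  ord_v_false _ hb hn := ord_red_v_false M q hqM hres hgen hell hb hn
  ns X i := modelNormSide (fun _ => mem_F₀_iff (modelUnitData M q hqM hres hgen hell)
    (modelUnitData_η M q hqM hres hgen hell)) X i
  ns_F₁ X i := modelNormSide_F₁ _ X i
  ns_N X i := by
    cases i
    · exact Or.inl fun g => by rw [modelNormSide_N_false, alpha_eq_inclM]
    · exact Or.inr fun g => by rw [modelNormSide_N_true, beta_eq_wAL_inclM M q hqM]

end Fermat.Agent.LoweringAtP.Model
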