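import Fermat.Agent.Hecke.BaseChange
import Fermat.Agent.LoweringAtP.Model.RatData
import Fermat.Agent.LoweringAtP.NormDegen
import Fermat.Agent.LoweringAtP.Setup.Fixed
import Fermat.Agent.TwoComponent.ModelDegen

/-!
# The norms to level `M` as sides of the level argument

Along `α` (side `∞`) and `β` (the other side), with `F₁` the functions of level `M` with
coefficients fixed by the stabiliser of `ϖ` in inertia.
-/

noncomputable section

open ModularCurve AlgebraicCurve IntermediateField Fermat.Agent.Red Fermat.Agent.Igusa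
  Fermat.Agent.TwoComponent

namespace Fermat.Agent.LoweringAtP.Model

local notation "Qb" => AlgebraicClosure ℚ
local notation "GQ" => (AlgebraicClosure ℚ ≃ₐ[ℚ] AlgebraicClosure ℚ)

/-- The norm commutes with a semilinear action commuting with the map. -/
theorem norm_map_equiv {K F F' : Type*} [Field K] [Field F] [Field F'] [Algebra K F] [Algebra K F']
    (φ : F →ₐ[K] F') (e₁ : F ≃+* F) (e₂ : F' ≃+* F') (h : ∀ x, e₂ (φ x) = φ (e₁ x)) (g : F') :
    Hecke.normAlong φ (e₂ g) = e₁ (Hecke.normAlong φ g) := by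
  let := algebraAlong φ
  show Algebra.norm F (e₂ g) = e₁ (Algebra.norm F g)
  rw [Algebra.norm_eq_of_equiv_equiv e₁ e₂ (RingHom.ext fun x => (h x).symm) g,
    e₁.apply_symm_apply]

/-- The coefficientwise action as a ring automorphism. -/
def coeffEquiv (N : ℕ) (σ : GQ) : modularFunctionFieldBar N ≃+* modularFunctionFieldBar N :=
  (Setup.coeffAct (N := N) σ).1.1

theorem coeffEquiv_apply (N : ℕ) (σ : GQ) (x : modularFunctionFieldBar N) :
    coeffEquiv N σ x = Setup.coeffAct (N := N) σ • x := rfl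

theorem normAlong_fixed {M N : ℕ} (φ : modularFunctionFieldBar M →ₐ[Qb] modularFunctionFieldBar N)
    (hφ : ∀ (σ : GQ) (x : modularFunctionFieldBar M),
      Setup.coeffAct (N := N) σ • φ x = φ (Setup.coeffAct (N := M) σ • x))
    {H : Subgroup GQ} {g : modularFunctionFieldBar N} (hg : Setup.CoeffFixed H g) :
    Hecke.normAlong φ g ∈ Setup.fixedField M H := fun σ hσ => by
  have h := norm_map_equiv φ (coeffEquiv M σ) (coeffEquiv N σ) (hφ σ) g
  rw [coeffEquiv_apply, Setup.coeffAct_smul_eq hg hσ] at h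
  exact h.symm

variable (M q : ℕ) [hq : Fact q.Prime] [NeZero M]

theorem coeffAct_alpha (σ : GQ) (x : modularFunctionFieldBar M) :
    Setup.coeffAct (N := M * q) σ • heckeAlphaBar Qb M q x =
      heckeAlphaBar Qb M q (Setup.coeffAct (N := M) σ • x) :=
  Subtype.ext (by
    rw [Setup.coe_coeffAct_smul, coe_heckeAlphaBar, coe_heckeAlphaBar, Setup.coe_coeffAct_smul])

omit [NeZero M] in
theorem coeffAct_beta (σ : GQ) (x : modularFunctionFieldBar M) :
    Setup.coeffAct (N := M * q) σ • heckeBetaBar Qb M q x =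
      heckeBetaBar Qb M q (Setup.coeffAct (N := M) σ • x) :=
  Subtype.ext (by
    rw [Setup.coe_coeffAct_smul, coe_heckeBetaBar, coe_heckeBetaBar, Setup.coe_coeffAct_smul,
      coeffMap_qExpand])

variable {M q}
variable {hqM : ¬ q ∣ M}
variable {A : ValuationSubring (AlgebraicClosure ℚ)} {k : Type*} [Field k] {π : A →+* k}
variable [CharP k q] [IsAlgClosed k] {hres : ResidueAt A q π}
variable {hgen : genusFF Qb (modularFunctionFieldBar M) ≤ genusFF k (CK M k)}

/-- Scales of the fixed functions of level `M`. -/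
theorem exists_scale_redLevel {H : Subgroup GQ} {u : modularFunctionFieldBar M}
    (hu : Setup.CoeffFixed H u) (h0 : u ≠ 0) :
    ∃ c : Qb, c ≠ 0 ∧ (∀ σ ∈ H, σ c = c) ∧ ∃ v : (redLevelC M q hqM hres).O,
      (redLevelC M q hqM hres).red v ≠ 0 ∧
        u = algebraMap Qb (modularFunctionFieldBar M) c * (v : modularFunctionFieldBar M) := by
  obtain ⟨c, hc, hfix, v, hv, e⟩ := exists_fixed_scale π (modularFunctionFieldBar M) hres.surj
    (bar_eq_fullC M) (divisorExpansions_subset_level M)
    ((fun σ : GQ => (σ : Qb →+* Qb)) '' H) h0 (by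
      rintro n _ ⟨σ, hσ, rfl⟩
      exact hu σ hσ n)
  exact ⟨c, hc, fun σ hσ => hfix _ ⟨σ, hσ, rfl⟩, v, fun h => hv (congrArg Subtype.val h), e⟩

variable {Ud : UnitData (modelTwoRed M q hqM hres hgen)} {Q₀ : RatData Ud}
  (hF₀ : ∀ u : FN M q, u ∈ Q₀.F₀ ↔ Setup.CoeffFixed (N := M * q) (A.inertiaSubgroupIn ℚ) u)
  (X : EisData Q₀ q)

include hF₀ in
theorem const_mem_fixedField (a : Qb) (ha : a ∈ X.ratData.K₀) :
    algebraMap Qb (modularFunctionFieldBar M) a ∈
      Setup.fixedField M (Setup.inertiaStab A (X.ϖ : Qb)) :=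
  Setup.algebraMap_mem_fixedField.mpr ((Setup.mem_constants_iff (N := M * q) X hF₀).mp ha)

include hF₀ in
/-- The scales of fixed functions of level `M` are powers of `ϖ`. -/
theorem scale_fixedField (u : modularFunctionFieldBar M)
    (hu : u ∈ Setup.fixedField M (Setup.inertiaStab A (X.ϖ : Qb))) (h0 : u ≠ 0) :
    ∃ (j : ℤ) (v : (redLevelC M q hqM hres).O), (redLevelC M q hqM hres).red v ≠ 0 ∧
      algebraMap Qb (modularFunctionFieldBar M) ((X.ϖ : Qb) ^ j) *
        (v : modularFunctionFieldBar M) = u := by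
  obtain ⟨c, hc, hfix, w, hw, e⟩ := exists_scale_redLevel (hqM := hqM) (hres := hres)
    (Setup.mem_fixedField_iff.mp hu) h0
  have hcK : c ∈ X.ratData.K₀ := (Setup.mem_constants_iff (N := M * q) X hF₀).mpr hfix
  obtain ⟨j, v, hv, hve⟩ := X.ratData.scale _ (X.ratData.const_mem c hcK)
    ((map_ne_zero _).mpr hc) false
  change algebraMap Qb (FN M q) ((X.ϖ : Qb) ^ j) * _ = _ at hve
  have hj : ((X.ϖ : Qb) ^ j) ≠ 0 := zpow_ne_zero _ X.ϖ_ne
  have hv' : (v : FN M q) = algebraMap Qb (FN M q) (c / (X.ϖ : Qb) ^ j) *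
      (1 : ((modelTwoRed M q hqM hres hgen).R false).O) := by
    rw [OneMemClass.coe_one, mul_one, map_div₀,
      eq_div_iff ((map_ne_zero _).mpr hj), mul_comm]
    exact hve
  have hA : c / (X.ϖ : Qb) ^ j ∈ A :=
    ((modelTwoRed M q hqM hres hgen).R false).mem_of_smul_mem
      (by rw [map_one]; exact one_ne_zero) hv'
  have hπ : π ⟨_, hA⟩ ≠ 0 := fun h => hv (by
    rw [show v = ((modelTwoRed M q hqM hres hgen).R false).ι ⟨_, hA⟩ from Subtype.ext (by
      rw [hv', OneMemClass.coe_one, mul_one, RedBase.coe_ι]), RedBase.red_ι, h, map_zero])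
  refine ⟨j, (redLevelC M q hqM hres).ι ⟨_, hA⟩ * w, ?_, ?_⟩
  · rw [map_mul, RedBase.red_ι]
    exact mul_ne_zero ((map_ne_zero _).mpr hπ) hw
  · rw [Subring.coe_mul, RedBase.coe_ι, ← mul_assoc, ← map_mul, mul_div_cancel₀ _ hj, e]

omit hq [NeZero M] [IsAlgClosed k] in
theorem charP_CK : CharP (CK M k) q :=
  charP_of_injective_algebraMap (algebraMap k (CK M k)).injective q

/-- **The norms to level `M`.** -/
def modelNormSide : ∀ i : Bool, NormSide X i (modularFunctionFieldBar M)
  | false =>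
    haveI := charP_CK (M := M) (q := q) (k := k)
    NormSide.ofDegen X (degenAlpha M q hqM hres hgen) rfl
      (Setup.fixedField M (Setup.inertiaStab A (X.ϖ : Qb)))
      (const_mem_fixedField hF₀ X) (scale_fixedField hF₀ X) fun _g hg =>
        normAlong_fixed (heckeAlphaBar Qb M q) (coeffAct_alpha M q)
          ((Setup.mem_field_iff (N := M * q) X hF₀).mp hg)
  | true =>
    haveI := charP_CK (M := M) (q := q) (k := k)
    NormSide.ofDegen X (degenBeta M q hqM hres hgen) rfl
      (Setup.fixedField M (Setup.inertiaStab A (X.ϖ : Qb)))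
      (const_mem_fixedField hF₀ X) (scale_fixedField hF₀ X) fun _g hg =>
        normAlong_fixed (heckeBetaBar Qb M q) (coeffAct_beta M q)
          ((Setup.mem_field_iff (N := M * q) X hF₀).mp hg)

theorem modelNormSide_F₁ (i : Bool) :
    (modelNormSide hF₀ X i).F₁ = Setup.fixedField M (Setup.inertiaStab A (X.ϖ : Qb)) := by
  cases i <;> rfl

theorem modelNormSide_N_false (g : FN M q) :
    (modelNormSide hF₀ X false).N g = Hecke.normAlong (heckeAlphaBar Qb M q) g := rfl

theorem modelNormSide_N_true (g : FN M q) :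
    (modelNormSide hF₀ X true).N g = Hecke.normAlong (heckeBetaBar Qb M q) g := rfl

end Fermat.Agent.LoweringAtP.Model
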