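import Fermat.Prelude.Def_ModularCurve_GenusNumerics
import Fermat.Agent.Grp.Index
import Fermat.Agent.Igusa.Degree

/-!
# The numerical invariants of `Γ₀(M q)`, `Γ₀(M)` without elliptic points, `q ∤ M`
-/

noncomputable section

namespace Fermat.Agent.LoweringAtP.Model

open ModularCurve

theorem dedekindPsi_mul {a b : ℕ} (h : a.Coprime b) :
    dedekindPsi (a * b) = dedekindPsi a * dedekindPsi b := by
  rw [Grp.dedekindPsi_eq_conv, Grp.dedekindPsi_eq_conv, Grp.dedekindPsi_eq_conv,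
    (Grp.sqfIndicator_isMultiplicative.mul
      ArithmeticFunction.isMultiplicative_id).map_mul_of_coprime h]

theorem psi_eq_dedekindPsi {N : ℕ} (hN : N ≠ 0) : Igusa.psi N = dedekindPsi N := by
  induction N using Nat.recOnPosPrimePosCoprime with
  | prime_pow p n hp hn =>
    rw [Grp.dedekindPsi_prime_pow hp hn, Igusa.psi, hp.factorization_pow, Finsupp.prod,
      Finsupp.support_single _ hn.ne', Finset.prod_singleton, Finsupp.single_eq_same]
    obtain ⟨m, rfl⟩ : ∃ m, n = m + 1 := ⟨n - 1, by omega⟩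
    rw [Nat.add_sub_cancel, add_mul, one_mul, pow_succ']
  | zero => exact absurd rfl hN
  | one => rw [Igusa.psi_one, dedekindPsi_one]
  | coprime a b ha hb hab iha ihb =>
    rw [dedekindPsi_mul hab, ← iha (by omega), ← ihb (by omega), Igusa.psi, Igusa.psi, Igusa.psi,
      Nat.factorization_mul (by omega) (by omega), Finsupp.prod_add_index_of_disjoint]
    simpa using hab.disjoint_primeFactors

theorem nuTwo_eq_zero {N : ℕ} (h : 4 ∣ N) : nuTwo N = 0 := by
  have : IsEmpty {x : ZMod N // x ^ 2 + 1 = 0} := ⟨fun ⟨x, hx⟩ => by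
    have h4 := congrArg (ZMod.castHom h (ZMod 4)) hx
    rw [map_add, map_pow, map_one, map_zero] at h4
    exact absurd h4 (by revert h4; generalize ZMod.castHom h (ZMod 4) x = y; revert y; decide)⟩
  rw [nuTwo, Nat.card_of_isEmpty]

theorem nuThree_eq_zero {N : ℕ} (h : 2 ∣ N) : nuThree N = 0 := by
  have : IsEmpty {x : ZMod N // x ^ 2 + x + 1 = 0} := ⟨fun ⟨x, hx⟩ => by
    have h2 := congrArg (ZMod.castHom h (ZMod 2)) hx
    rw [map_add, map_add, map_pow, map_one, map_zero] at h2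
    exact absurd h2 (by revert h2; generalize ZMod.castHom h (ZMod 2) x = y; revert y; decide)⟩
  rw [nuThree, Nat.card_of_isEmpty]

theorem nuTwo_eq_zero_of_dvd {d N : ℕ} (h : d ∣ N) (hd : nuTwo d = 0) [NeZero d] :
    nuTwo N = 0 := by
  have : IsEmpty {x : ZMod d // x ^ 2 + 1 = 0} := by
    rw [nuTwo, Nat.card_eq_zero] at hd
    exact hd.resolve_right (not_infinite_iff_finite.mpr inferInstance)
  have : IsEmpty {x : ZMod N // x ^ 2 + 1 = 0} := ⟨fun ⟨x, hx⟩ => IsEmpty.false
    (⟨ZMod.castHom h (ZMod d) x, by rw [← map_pow, ← map_one (ZMod.castHom h (ZMod d)),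
      ← map_add, hx, map_zero]⟩ : {x : ZMod d // x ^ 2 + 1 = 0})⟩
  rw [nuTwo, Nat.card_of_isEmpty]

theorem nuThree_eq_zero_of_dvd {d N : ℕ} (h : d ∣ N) (hd : nuThree d = 0) [NeZero d] :
    nuThree N = 0 := by
  have : IsEmpty {x : ZMod d // x ^ 2 + x + 1 = 0} := by
    rw [nuThree, Nat.card_eq_zero] at hd
    exact hd.resolve_right (not_infinite_iff_finite.mpr inferInstance)
  have : IsEmpty {x : ZMod N // x ^ 2 + x + 1 = 0} := ⟨fun ⟨x, hx⟩ => IsEmpty.false
    (⟨ZMod.castHom h (ZMod d) x, by rw [← map_pow, ← map_one (ZMod.castHom h (ZMod d)),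
      ← map_add, ← map_add, hx, map_zero]⟩ : {x : ZMod d // x ^ 2 + x + 1 = 0})⟩
  rw [nuThree, Nat.card_of_isEmpty]

/-- `Γ₀(N)` has no elliptic points. -/
structure NoEll (N : ℕ) : Prop where
  /-- none of order two -/
  nu_two : nuTwo N = 0
  /-- none of order three -/
  nu_three : nuThree N = 0

/-- A level divisible by `4` has no elliptic points. -/
theorem noEll_of_four {N : ℕ} (h : 4 ∣ N) : NoEll N :=
  ⟨nuTwo_eq_zero h, nuThree_eq_zero ((show 2 ∣ 4 by norm_num).trans h)⟩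

theorem NoEll.of_dvd {d N : ℕ} [NeZero d] (hd : NoEll d) (h : d ∣ N) : NoEll N :=
  ⟨nuTwo_eq_zero_of_dvd h hd.nu_two, nuThree_eq_zero_of_dvd h hd.nu_three⟩

/-- A prime `t ≡ 11 (mod 12)` kills all elliptic points. -/
theorem noEll_of_prime {t : ℕ} (ht : t.Prime) (h12 : t % 12 = 11) : NoEll t := by
  have := Fact.mk ht
  constructor
  · have : IsEmpty {x : ZMod t // x ^ 2 + 1 = 0} := ⟨fun ⟨x, hx⟩ => by
      have h := ZMod.exists_sq_eq_neg_one_iff (p := t) |>.mp
        ⟨x, by linear_combination -hx⟩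
      omega⟩
    rw [nuTwo, Nat.card_of_isEmpty]
  · have : IsEmpty {x : ZMod t // x ^ 2 + x + 1 = 0} := ⟨fun ⟨x, hx⟩ => by
      have hx3 : x ^ 3 = 1 := by linear_combination (x - 1) * hx
      have hx0 : x ≠ 0 := fun h => by rw [h] at hx3; simp at hx3
      have hx1 : x ≠ 1 := fun h => by
        rw [h] at hx
        norm_num at hx
        have h3 : (((3 : ℕ)) : ZMod t) = 0 := by exact_mod_cast hx
        have := Nat.le_of_dvd (by norm_num) ((ZMod.natCast_eq_zero_iff 3 t).mp h3)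
        omega
      have ho : orderOf x = 3 := orderOf_eq_prime hx3 hx1
      have hd := ZMod.orderOf_dvd_card_sub_one hx0
      rw [ho] at hd
      omega⟩
    rw [nuThree, Nat.card_of_isEmpty]

theorem cuspCount_mul_prime {M q : ℕ} (hq : q.Prime) (hqM : ¬ q ∣ M) :
    cuspCount (M * q) = 2 * cuspCount M := by
  have hcop : M.Coprime q := ((hq.coprime_iff_not_dvd).mpr hqM).symm
  have hdiv : (M * q).divisors = M.divisors ∪ M.divisors.image (· * q) := by
    ext d
    simp only [Nat.mem_divisors, Finset.mem_union, Finset.mem_image, ne_eq]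
    constructor
    · rintro ⟨hd, hne⟩
      by_cases hqd : q ∣ d
      · obtain ⟨d', rfl⟩ := hqd
        refine Or.inr ⟨d', ⟨Nat.dvd_of_mul_dvd_mul_left hq.pos (by rwa [mul_comm M q] at hd),
          left_ne_zero_of_mul hne⟩, mul_comm _ _⟩
      · exact Or.inl ⟨((hq.coprime_iff_not_dvd.mpr hqd).symm).dvd_of_dvd_mul_right hd,
          left_ne_zero_of_mul hne⟩
    · rintro (⟨hd, hne⟩ | ⟨d', ⟨hd, hne⟩, rfl⟩)
      · exact ⟨hd.mul_right q, mul_ne_zero hne hq.ne_zero⟩
      · exact ⟨Nat.mul_dvd_mul_right hd q, mul_ne_zero hne hq.ne_zero⟩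
  have hdisj : Disjoint M.divisors (M.divisors.image (· * q)) := by
    rw [Finset.disjoint_left]
    intro d hd hd'
    obtain ⟨d', -, rfl⟩ := Finset.mem_image.mp hd'
    exact hqM ((dvd_mul_left q d').trans (Nat.mem_divisors.mp hd).1)
  rw [cuspCount, hdiv, Finset.sum_union hdisj,
    Finset.sum_image fun a _ b _ h => Nat.eq_of_mul_eq_mul_right hq.pos h, cuspCount, two_mul,
    ← Finset.sum_add_distrib, ← Finset.sum_add_distrib]
  refine Finset.sum_congr rfl fun d hd => ?_
  have hdM : d ∣ M := (Nat.mem_divisors.mp hd).1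
  have hdq : d.Coprime q := hcop.coprime_dvd_left hdM
  have e1 : Nat.gcd (d * q) (M * q / (d * q)) = Nat.gcd d (M / d) := by
    rw [Nat.mul_div_mul_right _ _ hq.pos, Nat.Coprime.gcd_mul_right_cancel]
    exact (hcop.coprime_dvd_left (Nat.div_dvd_of_dvd hdM)).symm
  have e2 : Nat.gcd d (M * q / d) = Nat.gcd d (M / d) := by
    rw [mul_comm M q, Nat.mul_div_assoc _ hdM, Nat.Coprime.gcd_mul_left_cancel_right]
    exact hdq.symm
  rw [e1, e2]

/-- `12 (g(M q) + 1 - 2 g(M)) = (q - 1) ψ(M)`. -/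
theorem genusFormula_mul_prime {M q : ℕ} (hM : M ≠ 0) (hell : NoEll M) (hq : q.Prime)
    (hqM : ¬ q ∣ M) :
    12 * (genusFormula (M * q) + 1 - 2 * genusFormula M) = ((q : ℚ) - 1) * Igusa.psi M := by
  have : NeZero M := ⟨hM⟩
  have hcop : M.Coprime q := ((hq.coprime_iff_not_dvd).mpr hqM).symm
  have hψ : dedekindPsi q = q + 1 := by
    have := Grp.dedekindPsi_prime_pow hq one_pos
    rwa [pow_one, Nat.sub_self, pow_zero] at this
  rw [genusFormula, genusFormula, dedekindPsi_mul hcop, hψ, psi_eq_dedekindPsi hM,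
    hell.nu_two, (NoEll.of_dvd hell (dvd_mul_right M q)).nu_two,
    hell.nu_three, (NoEll.of_dvd hell (dvd_mul_right M q)).nu_three,
    cuspCount_mul_prime hq hqM]
  push_cast
  ring

end Fermat.Agent.LoweringAtP.Model
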