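import Fermat.Agent.LoweringAtP.Model.Scale
import Fermat.Agent.LoweringAtP.PeuRamifie.Basic
import Fermat.Agent.LoweringAtP.PeuRamifie.Repr
import Fermat.Agent.TwoComponent.ModelSemi
import Fermat.Agent.TwoComponent.Rational

/-!
# The functions of level `M q` rational over the inertia field

Their scales on both components are powers of `q`, they cover the residue field, and they span
every `L(E)` with `E` stable.
-/

noncomputable section

open ModularCurve AlgebraicCurve IntermediateField Fermat.Agent.Red Fermat.Agent.TwoComponent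

namespace Fermat.Agent.LoweringAtP.Model

local notation "Qb" => AlgebraicClosure ℚ
local notation "GQ" => (AlgebraicClosure ℚ ≃ₐ[ℚ] AlgebraicClosure ℚ)

variable (M q : ℕ) [hq : Fact q.Prime] [NeZero M] (hqM : ¬ q ∣ M)
variable (A : ValuationSubring (AlgebraicClosure ℚ))

/-- The functions fixed by a set of Galois automorphisms. -/
def fixedFns (H : Set GQ) : Subfield (FN M q) where
  carrier := {f | ∀ σ ∈ H, galFN M q σ • f = f}
  mul_mem' := fun {a b} ha hb σ hσ => by rw [smul_mul', ha σ hσ, hb σ hσ]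
  one_mem' := fun σ _ => smul_one _
  add_mem' := fun {a b} ha hb σ hσ => by rw [smul_add, ha σ hσ, hb σ hσ]
  zero_mem' := fun σ _ => smul_zero _
  neg_mem' := fun {a} ha σ hσ => by rw [smul_neg, ha σ hσ]
  inv_mem' := fun a ha σ hσ => by rw [smul_inv'', ha σ hσ]

/-- The functions rational over the inertia field. -/
abbrev ratField : Subfield (FN M q) :=
  fixedFns M q (A.inertiaSubgroupIn ℚ : Set GQ)

variable {M q A}

omit hq [NeZero M] in
theorem mem_fixedFns_iff_coeff {H : Set GQ} {f : FN M q} :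
    f ∈ fixedFns M q H ↔
      ∀ (n : ℤ), ∀ σ ∈ H, σ ((f : LaurentSeries Qb).coeff n) = (f : LaurentSeries Qb).coeff n := by
  constructor
  · intro h n σ hσ
    conv_rhs => rw [← h σ hσ, coe_galFN_smul, coeffMap_coeff]
    rfl
  · intro h σ hσ
    refine Subtype.ext (HahnSeries.ext (funext fun n => ?_))
    rw [coe_galFN_smul, coeffMap_coeff]
    exact h n σ hσ

omit hq [NeZero M] in
theorem algebraMap_mem_fixedFns {H : Set GQ} {a : Qb} (ha : ∀ σ ∈ H, σ a = a) :
    algebraMap Qb (FN M q) a ∈ fixedFns M q H := fun σ hσ => by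
  rw [SemilinearAut.smul_algebraMap]
  exact congrArg _ (ha σ hσ)

include hqM in
theorem wAL_mem_fixedFns {H : Set GQ} {f : FN M q} (hf : f ∈ fixedFns M q H) :
    wAL M q hqM f ∈ fixedFns M q H := fun σ hσ => by
  rw [← wAL_galFN, hf σ hσ]

omit [NeZero M] in
theorem xN_mem_fixedFns (H : Set GQ) : xN M q ∈ fixedFns M q H := fun σ _ =>
  galFN_smul_xN M q σ

variable {k : Type*} [Field k] {π : A →+* k} [CharP k q] [IsAlgClosed k]

omit hq [IsAlgClosed k] in
theorem liesOverPrime_of_residueAt (hres : ResidueAt A q π) : A.LiesOverPrime q := by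
  show A.valuation (q : Qb) < 1
  have hker : RingHom.ker π = IsLocalRing.maximalIdeal A :=
    IsLocalRing.eq_maximalIdeal (RingHom.ker_isMaximal_of_surjective π hres.surj)
  have hmem : (q : A) ∈ IsLocalRing.maximalIdeal A := by
    rw [← hker, RingHom.mem_ker, map_natCast, CharP.cast_eq_zero]
  have h := (A.valuation_lt_one_iff _).mp hmem
  rwa [show ((q : A) : Qb) = (q : Qb) from map_natCast A.subtype q] at h

omit [IsAlgClosed k] in
theorem pi_ne_zero_of_val_eq_one {a : A}
    (ha : A.valuation (a : Qb) = 1) : π a ≠ 0 :=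
  (((ValuationSubring.valuation_eq_one_iff A a).mpr ha).map π).ne_zero

omit [CharP k q] [IsAlgClosed k] hq [NeZero M] in
/-- Scales at infinity of functions with coefficients fixed by `H`. -/
theorem exists_scale_redInf (hres : ResidueAt A q π) {H : Set GQ} {f : FN M q}
    (hf : f ∈ fixedFns M q H) (h0 : f ≠ 0) :
    ∃ c : Qb, c ≠ 0 ∧ (∀ σ ∈ H, σ c = c) ∧ ∃ u : (redInf M q hres).O,
      (redInf M q hres).red u ≠ 0 ∧ f = algebraMap Qb (FN M q) c * (u : FN M q) := by
  obtain ⟨c, hc, hfix, u, hu, e⟩ := exists_fixed_scale π (FN M q) hres.surj (FN_eq M q)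
    (divisorExpansions_subset M q) ((fun σ : GQ => (σ : Qb →+* Qb)) '' H) h0 (by
      rintro n _ ⟨σ, hσ, rfl⟩
      exact mem_fixedFns_iff_coeff.mp hf n σ hσ)
  exact ⟨c, hc, fun σ hσ => hfix _ ⟨σ, hσ, rfl⟩, u, hu, e⟩

/-- Scales on both components of functions with coefficients fixed by `H`. -/
theorem exists_scale_redC (hres : ResidueAt A q π) {H : Set GQ} {f : FN M q}
    (hf : f ∈ fixedFns M q H) (h0 : f ≠ 0) (i : Bool) :
    ∃ c : Qb, c ≠ 0 ∧ (∀ σ ∈ H, σ c = c) ∧ ∃ u : (redC M q hqM hres i).O,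
      (redC M q hqM hres i).red u ≠ 0 ∧ f = algebraMap Qb (FN M q) c * (u : FN M q) := by
  cases i
  · obtain ⟨c, hc, hfix, u, hu, e⟩ := exists_scale_redInf hres hf h0
    exact ⟨c, hc, hfix, u, fun h => hu ((coe_redC_red M q hqM hres false u).symm.trans
      (congrArg Subtype.val h)), e⟩
  · obtain ⟨c, hc, hfix, u, hu, e⟩ := exists_scale_redInf hres (wAL_mem_fixedFns hqM hf)
      (by simpa using h0)
    have hmem : wAL M q hqM (u : FN M q) ∈ (redC M q hqM hres true).O := by
      show wAL M q hqM (wAL M q hqM (u : FN M q)) ∈ (redInf M q hres).O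
      rw [wAL_wAL]; exact u.2
    refine ⟨c, hc, hfix, ⟨_, hmem⟩, fun h => hu ?_, ?_⟩
    · have h' := (coe_redC_red M q hqM hres true ⟨_, hmem⟩).symm.trans (congrArg Subtype.val h)
      refine (congrArg (redInf M q hres).red (Subtype.ext ?_)).trans h'
      exact (wAL_wAL M q hqM _).symm
    · apply (wAL M q hqM).injective
      rw [map_mul, AlgEquiv.commutes, wAL_wAL, e]

/-- Over the inertia field the scales are powers of `q`. -/
theorem exists_zpow_scale_redC (hres : ResidueAt A q π) {f : FN M q}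
    (hf : f ∈ ratField M q A) (h0 : f ≠ 0) (i : Bool) :
    ∃ (j : ℤ) (u : (redC M q hqM hres i).O), (redC M q hqM hres i).red u ≠ 0 ∧
      f = algebraMap Qb (FN M q) ((q : Qb) ^ j) * (u : FN M q) := by
  have hA := liesOverPrime_of_residueAt hres
  obtain ⟨c, hc, hfix, u, hu, e⟩ := exists_scale_redC hqM hres hf h0 i
  obtain ⟨j, hj⟩ := PeuRamifie.exists_val_eq_zpow hq.out hA (fun σ hσ => hfix σ hσ) hc
  have hq0 : (q : Qb) ≠ 0 := Nat.cast_ne_zero.mpr hq.out.ne_zero
  set ε := c / (q : Qb) ^ j with hε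
  have hε1 : A.valuation ε = 1 := by
    rw [hε, map_div₀, map_zpow₀, hj, div_self]
    exact zpow_ne_zero _ ((Valuation.ne_zero_iff _).mpr hq0)
  refine ⟨j, (redC M q hqM hres i).ι ⟨ε, (A.valuation_le_one_iff _).mp hε1.le⟩ * u, ?_, ?_⟩
  · rw [map_mul, RedBase.red_ι]
    exact mul_ne_zero ((map_ne_zero _).mpr (pi_ne_zero_of_val_eq_one hε1)) hu
  · rw [Subring.coe_mul, RedBase.coe_ι, ← mul_assoc, ← map_mul]
    show f = algebraMap Qb (FN M q) ((q : Qb) ^ j * ε) * (u : FN M q)
    rw [hε, mul_div_cancel₀ _ (zpow_ne_zero _ hq0), e]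

/-- The rational structure of the model over the inertia field. -/
def modelRatRed (hres : ResidueAt A q π)
    (hgen : genusFF Qb (modularFunctionFieldBar M) ≤ genusFF k (CK M k)) :
    RatRed (modelTwoRed M q hqM hres hgen) where
  F0 := ratField M q A
  p := q
  hp := hq.out
  hpk := CharP.cast_eq_zero k q
  hp0 := Nat.cast_ne_zero.mpr hq.out.ne_zero
  scale i f hf h0 := exists_zpow_scale_redC hqM hres hf h0 i
  unit_lift z := by
    obtain ⟨a, ha, hz⟩ :=
      PeuRamifie.exists_lift hq.out (liesOverPrime_of_residueAt hres) π hres.surj z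
    exact ⟨a, hz, algebraMap_mem_fixedFns fun σ hσ => ha σ hσ⟩
  x_mem := xN_mem_fixedFns _

/-- The pole divisor of the coordinate is stable. -/
theorem galFN_smul_poleDiv (σ : GQ) :
    galFN M q σ • FF.poleDiv (K := Qb) (xN M q) = FF.poleDiv (K := Qb) (xN M q) := by
  ext P
  rw [SemilinearAut.divisor_smul_apply, FF.poleDiv_apply, FF.poleDiv_apply]
  conv_rhs => rw [← smul_inv_smul (galFN M q σ) P, ← galFN_smul_xN M q σ,
    SemilinearAut.ord_smul]

/-- Rational functions span the spaces of stable divisors. -/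
theorem rrSpace_le_span {H : Set GQ} {E : Divisor Qb (FN M q)}
    (hE : ∀ σ ∈ H, galFN M q σ • E = E) :
    riemannRochSpace E ≤
      Submodule.span Qb {u | u ∈ riemannRochSpace E ∧ u ∈ fixedFns M q H} :=
  (PeuRamifie.rrSpace_le_span_fixed (N := M * q) H hE).trans (Submodule.span_mono fun _ hu =>
    ⟨hu.1, mem_fixedFns_iff_coeff.mpr hu.2⟩)

end Fermat.Agent.LoweringAtP.Model
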