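import Fermat.Agent.LoweringAtP.PeuRamifie.Descent
import Fermat.Agent.TwoComponent.IntSeries

/-!
# Scales of functions with fixed coefficients

In a field generated by integer series, a series whose coefficients are fixed by a set `H` of
endomorphisms of the constants is a fixed constant times a unit of the Gauss reduction: both sides
of `f s = r` can be taken with fixed coefficients, and the scale of such a series is one of them.
-/

noncomputable section

open ModularCurve AlgebraicCurve Fermat.Agent.TwoComponent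

namespace Fermat.Agent.LoweringAtP.Model

variable {L k : Type*} [Field L] [Field k]

/-- A finite dimensional space spanned by integer series is stable. -/
theorem coeffMap_mem_span_int (g : L →+* L) {W : Finset (LaurentSeries L)}
    (hW : ∀ w ∈ W, w ∈ IntSer L) {x : LaurentSeries L}
    (hx : x ∈ Submodule.span L (W : Set (LaurentSeries L))) :
    coeffMap g x ∈ Submodule.span L (W : Set (LaurentSeries L)) := by
  induction hx using Submodule.span_induction with
  | mem y hy =>
    obtain ⟨z, rfl⟩ := hW y hy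
    rw [coeffMap_coeffMap, coeffMap_congr (RingHom.ext_int _ (Int.castRingHom L))]
    exact Submodule.subset_span hy
  | zero => rw [map_zero]; exact zero_mem _
  | add a b _ _ iha ihb => rw [map_add]; exact add_mem iha ihb
  | smul a y _ ih =>
    have e : coeffMap g (a • y) = g a • coeffMap g y := HahnSeries.ext (funext fun n => by
      simp [coeffMap_coeff])
    rw [e]
    exact Submodule.smul_mem _ _ ih

variable {A : ValuationSubring L} (π : A →+* k)

/-- The scale of a series is the value of one of its coefficients. -/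
theorem exists_coeff_val_eq (hπ : Function.Surjective π) {c : L} {y : LaurentSeries A}
    {P : LaurentSeries L}
    (hP : P = algebraMap L (LaurentSeries L) c * coeffMap A.subtype y) (hy : coeffMap π y ≠ 0) :
    ∃ n, A.valuation (P.coeff n) = A.valuation c := by
  obtain ⟨n, hn⟩ : ∃ n, (coeffMap π y).coeff n ≠ 0 := by
    by_contra h
    push Not at h
    exact hy (HahnSeries.ext (funext h))
  rw [coeffMap_coeff] at hn
  refine ⟨n, ?_⟩
  have hu : A.valuation (y.coeff n : L) = 1 := by
    rw [← ValuationSubring.valuation_eq_one_iff]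
    by_contra hu
    refine hn ?_
    have hmem : y.coeff n ∈ IsLocalRing.maximalIdeal A := (IsLocalRing.mem_maximalIdeal _).mpr hu
    have hker : RingHom.ker π = IsLocalRing.maximalIdeal A :=
      IsLocalRing.eq_maximalIdeal (RingHom.ker_isMaximal_of_surjective π hπ)
    exact RingHom.mem_ker.mp (hker ▸ hmem)
  rw [hP, algebraMap_mul_coeff, coeffMap_coeff, map_mul]
  exact (congrArg (A.valuation c * ·) hu).trans (mul_one _)

variable (F : IntermediateField L (LaurentSeries L))

/-- **Scales of fixed functions.** -/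
theorem exists_fixed_scale (hπ : Function.Surjective π) {S : Set (LaurentSeries L)}
    (hF : F = IntermediateField.adjoin L S) (hS : S ⊆ IntSer L) (H : Set (L →+* L)) {f : F}
    (hf : f ≠ 0)
    (hfix : ∀ (n : ℤ), ∀ g ∈ H, g ((f : LaurentSeries L).coeff n) = (f : LaurentSeries L).coeff n) :
    ∃ c : L, c ≠ 0 ∧ (∀ g ∈ H, g c = c) ∧ ∃ u : (gaussBase A π F hπ S hF hS).O,
      (gaussBase A π F hπ S hF hS).red u ≠ 0 ∧ f = algebraMap L F c * (u : F) := by
  classical
  have hfS : (f : LaurentSeries L) ∈ IntermediateField.adjoin L S := hF ▸ f.2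
  obtain ⟨r, hr, s, hs, hrs⟩ := IntermediateField.mem_adjoin_iff_div.mp hfS
  have hf0 : (f : LaurentSeries L) ≠ 0 := fun h => hf (Subtype.ext h)
  have hs0 : s ≠ 0 := fun h => hf0 (by rw [hrs, h, div_zero])
  have hle : Submonoid.closure S ≤ (coeffMap (Int.castRingHom L)).range.toSubmonoid :=
    Submonoid.closure_le.mpr fun x hx => hS hx
  have hcF : (Submonoid.closure S : Set (LaurentSeries L)) ⊆ F := fun x hx => by
    induction hx using Submonoid.closure_induction with
    | mem y hy => exact hF ▸ IntermediateField.subset_adjoin L S hy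
    | one => exact one_mem F
    | mul a b _ _ iha ihb => exact mul_mem iha ihb
  have hfin : ∀ p ∈ Algebra.adjoin L S, ∃ W : Finset (LaurentSeries L),
      (∀ w ∈ W, w ∈ Submonoid.closure S) ∧ p ∈ Submodule.span L (W : Set (LaurentSeries L)) := by
    intro p hp
    rw [← Subalgebra.mem_toSubmodule, Algebra.adjoin_eq_span] at hp
    induction hp using Submodule.span_induction with
    | mem x hx => exact ⟨{x}, fun w hw => by rwa [Finset.mem_singleton.mp hw],
        Submodule.subset_span (Finset.mem_singleton_self x)⟩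
    | zero => exact ⟨∅, by simp, zero_mem _⟩
    | add a b _ _ iha ihb =>
      obtain ⟨Wa, hWa, ha⟩ := iha
      obtain ⟨Wb, hWb, hb⟩ := ihb
      exact ⟨Wa ∪ Wb, fun w hw => (Finset.mem_union.mp hw).elim (hWa w) (hWb w),
        add_mem (Submodule.span_mono (by simp) ha) (Submodule.span_mono (by simp) hb)⟩
    | smul a x _ ih =>
      obtain ⟨W, hW, hx⟩ := ih
      refine ⟨W, hW, ?_⟩
      rw [Algebra.smul_def, algebraMap_laurentSeries_eq_single, HahnSeries.single_zero_mul_eq_smul]
      exact Submodule.smul_mem _ _ hx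
  obtain ⟨Ws, hWs, hsW⟩ := hfin s hs
  obtain ⟨Wr, hWr, hrW⟩ := hfin r hr
  have hspanF : ∀ {W : Finset (LaurentSeries L)}, (∀ w ∈ W, w ∈ Submonoid.closure S) →
      ∀ x ∈ Submodule.span L (W : Set (LaurentSeries L)), x ∈ F := fun {W} hW x hx => by
    induction hx using Submodule.span_induction with
    | mem y hy => exact hcF (hW y hy)
    | zero => exact zero_mem _
    | add a b _ _ iha ihb => exact add_mem iha ihb
    | smul a y _ ih =>
      rw [← HahnSeries.single_zero_mul_eq_smul, ← algebraMap_laurentSeries_eq_single]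
      exact mul_mem (F.algebraMap_mem a) ih
  have hspanI : ∀ {W : Finset (LaurentSeries L)}, (∀ w ∈ W, w ∈ Submonoid.closure S) →
      ∀ x ∈ Submodule.span L (W : Set (LaurentSeries L)), x ∈ Submodule.span L (IntSer L) :=
    fun {W} hW x hx => Submodule.span_mono (fun y hy => hle (hW y hy)) hx
  let V : Submodule L (LaurentSeries L) :=
    { carrier := {x | x ∈ Submodule.span L (Ws : Set (LaurentSeries L)) ∧
        (f : LaurentSeries L) * x ∈ Submodule.span L (Wr : Set (LaurentSeries L))}
      zero_mem' := ⟨zero_mem _, by rw [mul_zero]; exact zero_mem _⟩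
      add_mem' := fun ha hb => ⟨add_mem ha.1 hb.1, by rw [mul_add]; exact add_mem ha.2 hb.2⟩
      smul_mem' := fun a x hx => ⟨Submodule.smul_mem _ _ hx.1, by
        rw [← HahnSeries.single_zero_mul_eq_smul, mul_left_comm,
          HahnSeries.single_zero_mul_eq_smul]
        exact Submodule.smul_mem _ _ hx.2⟩ }
  have : FiniteDimensional L V :=
    haveI := FiniteDimensional.span_of_finite L Ws.finite_toSet
    Submodule.finiteDimensional_of_le
      (S₂ := Submodule.span L (Ws : Set (LaurentSeries L))) fun x hx => hx.1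
  have hsV : s ∈ V := ⟨hsW, by rwa [hrs, div_mul_cancel₀ _ hs0]⟩
  have hspan := PeuRamifie.le_span_fixed H V (fun g hg x hx => ⟨coeffMap_mem_span_int g
    (fun w hw => hle (hWs w hw)) hx.1, by
      have e : coeffMap g ((f : LaurentSeries L) * x) = (f : LaurentSeries L) * coeffMap g x := by
        rw [map_mul]
        congr 1
        exact HahnSeries.ext (funext fun n => by rw [coeffMap_coeff, hfix n g hg])
      rw [← e]
      exact coeffMap_mem_span_int g (fun w hw => hle (hWr w hw)) hx.2⟩) hsV
  obtain ⟨s', ⟨⟨hs'W, hr'W⟩, hs'fix⟩, hs'0⟩ :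
      ∃ x, (x ∈ V ∧ ∀ (n : ℤ), ∀ g ∈ H, g (x.coeff n) = x.coeff n) ∧ x ≠ 0 := by
    by_contra hcon
    push Not at hcon
    exact hs0 ((Submodule.mem_bot L).mp
      (Submodule.span_le.mpr (fun x hx => (Submodule.mem_bot L).mpr (hcon x hx)) hspan))
  set r' := (f : LaurentSeries L) * s' with hr'
  have hr'0 : r' ≠ 0 := mul_ne_zero hf0 hs'0
  have hr'fix : ∀ (n : ℤ), ∀ g ∈ H, g (r'.coeff n) = r'.coeff n := fun n g hg => by
    rw [← coeffMap_coeff, hr', map_mul]
    congr 2
    · exact HahnSeries.ext (funext fun n => by rw [coeffMap_coeff, hfix n g hg])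
    · exact HahnSeries.ext (funext fun n => by rw [coeffMap_coeff, hs'fix n g hg])
  obtain ⟨c, hc, y, hry, hy⟩ := exists_primitive_series π (hspanI hWr _ hr'W) hr'0
  obtain ⟨d, hd, z, hsz, hz⟩ := exists_primitive_series π (hspanI hWs _ hs'W) hs'0
  obtain ⟨n, hn⟩ := exists_coeff_val_eq π hπ hry hy
  obtain ⟨m, hm⟩ := exists_coeff_val_eq π hπ hsz hz
  have hn0 : r'.coeff n ≠ 0 := fun h => hc (by
    rw [h, map_zero, eq_comm, Valuation.zero_iff] at hn; exact hn)
  have hm0 : s'.coeff m ≠ 0 := fun h => hd (by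
    rw [h, map_zero, eq_comm, Valuation.zero_iff] at hm; exact hm)
  set e := r'.coeff n / s'.coeff m with he
  have he0 : e ≠ 0 := div_ne_zero hn0 hm0
  -- the unit
  set ε := c / d / e with hε
  have hε1 : A.valuation ε = 1 := by
    rw [hε, he, map_div₀, map_div₀, map_div₀, hn, hm, div_self]
    exact div_ne_zero ((Valuation.ne_zero_iff _).mpr hc) ((Valuation.ne_zero_iff _).mpr hd)
  have hεA : ε ∈ A := (A.valuation_le_one_iff _).mp hε1.le
  have hεu : IsUnit (⟨ε, hεA⟩ : A) := (ValuationSubring.valuation_eq_one_iff A ⟨ε, hεA⟩).mpr hε1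
  have hmem : ∀ {a : L} {w : LaurentSeries A} {P : LaurentSeries L}, a ≠ 0 → P ∈ F →
      P = algebraMap L (LaurentSeries L) a * coeffMap A.subtype w →
      coeffMap A.subtype w ∈ F := fun {a w P} ha hP e => by
    have : coeffMap A.subtype w = algebraMap L (LaurentSeries L) a⁻¹ * P := by
      rw [e, ← mul_assoc, ← map_mul, inv_mul_cancel₀ ha, map_one, one_mul]
    rw [this]
    exact mul_mem (F.algebraMap_mem _) hP
  let yF : intFns A F :=
    ⟨⟨_, hmem hc (hspanF hWr _ hr'W) hry⟩, (mem_intFns A F).mpr ⟨y, rfl⟩⟩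
  let zF : intFns A F :=
    ⟨⟨_, hmem hd (hspanF hWs _ hs'W) hsz⟩, (mem_intFns A F).mpr ⟨z, rfl⟩⟩
  let εF : intFns A F := ⟨_, algebraMap_mem_intFns A F (⟨ε, hεA⟩ : A)⟩
  have hzF : intRed A π F zF ≠ 0 := by rw [intRed_eq A π F (y := z) rfl]; exact hz
  have hyF : intRed A π F (εF * yF) ≠ 0 := by
    rw [map_mul, intRed_algebraMap, intRed_eq A π F (f := yF) (y := y) rfl]
    exact mul_ne_zero ((map_ne_zero _).mpr (hεu.map π).ne_zero) hy
  have hzne : (zF : F) ≠ 0 := fun h => hzF (by rw [show zF = 0 from Subtype.ext h, map_zero])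
  have hmul : ((εF * yF : intFns A F) : F) / (zF : F) * (zF : F) = ((εF * yF : intFns A F) : F) :=
    div_mul_cancel₀ _ hzne
  have hu : ((εF * yF : intFns A F) : F) / (zF : F) ∈ gaussO A π F :=
    ⟨εF * yF, zF, hzF, hmul⟩
  refine ⟨e, he0, fun g hg => by rw [he, map_div₀, hr'fix n g hg, hs'fix m g hg], ⟨_, hu⟩, ?_,
    Subtype.ext ?_⟩
  · show gaussRedHom A π F ⟨_, hu⟩ ≠ 0
    rw [gaussRedHom_eq A π F (f := ⟨_, hu⟩) (y := εF * yF) (z := zF) hzF hmul]
    exact div_ne_zero hyF hzF
  · have hf' : (f : LaurentSeries L) = r' / s' := by rw [hr', mul_div_cancel_right₀ _ hs'0]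
    rw [hf', hry, hsz]
    show _ = algebraMap L (LaurentSeries L) e *
      (algebraMap L (LaurentSeries L) ε * coeffMap A.subtype y / coeffMap A.subtype z)
    have he' : algebraMap L (LaurentSeries L) e ≠ 0 := (map_ne_zero _).mpr he0
    have hd' : algebraMap L (LaurentSeries L) d ≠ 0 := (map_ne_zero _).mpr hd
    have key : c / d = e * ε := by rw [hε, mul_div_cancel₀ _ he0]
    rw [← mul_div_assoc, ← mul_assoc, ← map_mul, ← key, map_div₀]
    clear_value e ε
    field_simp

end Fermat.Agent.LoweringAtP.Model
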