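import Fermat.Agent.LoweringAtP.HeckeCompat.DeltaNorm
import Fermat.Agent.Mazur.Disc.Unit
import Fermat.Agent.TwoComponent.ModelSemi

/-!
# The unit `Δ(τ)/Δ(qτ)` on the two-component model of `X₀(M q)`

It has no zero and no pole where `x` is finite; it reduces to `Δ̄(τ)/Δ̄(qτ)` at infinity, and the
Atkin–Lehner involution exchanges it with `q¹²` over itself.
-/

noncomputable section

open ModularCurve AlgebraicCurve IntermediateField Fermat.Agent.Red Fermat.Agent.Igusa
  Fermat.Agent.TwoComponent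

namespace Fermat.Agent.LoweringAtP.Model

local notation "Qb" => AlgebraicClosure ℚ
local notation "GQ" => (AlgebraicClosure ℚ ≃ₐ[ℚ] AlgebraicClosure ℚ)

variable (M q : ℕ) [hq : Fact q.Prime] [NeZero M]

/-- `Δ(τ)/Δ(qτ)` in the function field of level `M q`. -/
def unitFN : FN M q :=
  ⟨coeffEmb Qb (modularUnitSeries q),
    coeffEmb_mem_laurentBaseChange Qb
      (Mazur.Disc.modularUnitSeries_mem_full q (dvd_mul_left q M))⟩

theorem coe_unitFN : (unitFN M q : LaurentSeries Qb) = HeckeCompat.unitSer Qb q :=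
  HeckeCompat.coeffEmb_modularUnit Qb q

theorem unitFN_ne_zero : unitFN M q ≠ 0 := fun h =>
  HeckeCompat.unitSer_ne_zero (k := Qb) q ((coe_unitFN M q).symm.trans (congrArg Subtype.val h))

/-- The inclusion of level `q`. -/
def inclQ : modularFunctionFieldBar q →ₐ[Qb] FN M q :=
  IntermediateField.inclusion (by
    rw [FN_eq, show modularFunctionFieldBar q = modularFunctionFieldFullC Qb q from
      MF.laurentBaseChange_full_eq Qb q]
    exact full_le_iff.mpr fun d hd0 hd => jv_mem_full hd0 (hd.mul_left M))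

omit hq [NeZero M] in
theorem coe_inclQ (a : modularFunctionFieldBar q) :
    (inclQ M q a : LaurentSeries Qb) = (a : LaurentSeries Qb) :=
  IntermediateField.coe_inclusion _ a

omit hq [NeZero M] in
theorem coe_jOne : (jOne M q : LaurentSeries Qb) = jqModC Qb := by
  rw [jOne, coe_jEl, jv_one_one]

omit [NeZero M] in
theorem inclQ_jBar : inclQ M q (Mazur.jBar q) = jOne M q := by
  refine Subtype.ext ?_
  rw [coe_inclQ, coe_jOne]
  exact Mono.coeffEmb_jq Qb

omit [NeZero M] in
theorem inclQ_jNBar : inclQ M q (Mazur.jNBar q) = jQ M q := by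
  refine Subtype.ext ?_
  rw [coe_inclQ, jQ, coe_jEl, jv_one_eq_qExpand]
  exact Red.coeffEmb_qExpand_jq Qb q

variable (hqM : ¬ q ∣ M)

/-- **The involution exchanges the unit with `q¹²` over itself.** -/
theorem wAL_unitFN :
    wAL M q hqM (unitFN M q) * unitFN M q = algebraMap Qb (FN M q) ((q : Qb) ^ 12) := by
  let τ : modularFunctionFieldBar q →+* LaurentSeries Qb :=
    ((FN M q).val.comp ((wAL M q hqM).toAlgHom.comp (inclQ M q))).toRingHom
  have hC : ∀ a, τ (algebraMap Qb _ a) = HahnSeries.C a := fun a => by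
    show (((wAL M q hqM) (inclQ M q (algebraMap Qb _ a)) : FN M q) : LaurentSeries Qb) = _
    rw [AlgHom.commutes, AlgEquiv.commutes, HahnSeries.C_apply,
      ← algebraMap_laurentSeries_eq_single]
    rfl
  have hj : τ (Mazur.jBar q) = qExpand Qb q (coeffEmb Qb jq) := by
    show ((wAL M q hqM (inclQ M q (Mazur.jBar q)) : FN M q) : LaurentSeries Qb) = _
    rw [inclQ_jBar, wAL_jOne, jQ, coe_jEl, jv_one_eq_qExpand, Mono.coeffEmb_jq]
  have hjN : τ (Mazur.jNBar q) = coeffEmb Qb jq := by
    show ((wAL M q hqM (inclQ M q (Mazur.jNBar q)) : FN M q) : LaurentSeries Qb) = _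
    rw [inclQ_jNBar, wAL_jQ, coe_jOne, Mono.coeffEmb_jq]
  set u : modularFunctionFieldBar q := ⟨coeffEmb Qb (modularUnitSeries q),
    coeffEmb_mem_laurentBaseChange Qb (Mazur.Disc.modularUnitSeries_mem_full q dvd_rfl)⟩ with hu
  have h := Mazur.Disc.fricke_mul_unit τ hC hj hjN u rfl
  have e : inclQ M q u = unitFN M q := Subtype.ext (by rw [coe_inclQ]; rfl)
  refine Subtype.ext ?_
  rw [MulMemClass.coe_mul, show ((algebraMap Qb (FN M q) ((q : Qb) ^ 12) : FN M q) :
      LaurentSeries Qb) = HahnSeries.C ((q : Qb) ^ 12) by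
    rw [HahnSeries.C_apply, ← algebraMap_laurentSeries_eq_single]; rfl, ← h, ← e]
  rfl

/-- The Atkin–Lehner involution sends the unit `u` to `q ^ 12 / u`. -/
theorem wAL_unitFN_eq :
    wAL M q hqM (unitFN M q) = algebraMap Qb (FN M q) ((q : Qb) ^ 12) * (unitFN M q)⁻¹ := by
  rw [← wAL_unitFN M q hqM, mul_inv_cancel_right₀ (unitFN_ne_zero M q)]

/-! ### zeros and poles -/

/-- The unit and its inverse are integral over `ℚ̄[j]`. -/
theorem isIntegral_unitFN :
    IsIntegral (Algebra.adjoin Qb {jOne M q}) (unitFN M q) ∧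
      IsIntegral (Algebra.adjoin Qb {jOne M q}) (unitFN M q)⁻¹ :=
  ⟨Mazur.Disc.isIntegral_of_relation _ _ (coe_jOne M q) rfl (Mazur.Disc.exists_relation_unit q),
    Mazur.Disc.isIntegral_of_relation _ _ (coe_jOne M q)
      (by rw [IntermediateField.coe_inv]; exact (map_inv₀ (coeffEmb Qb) _).symm)
      (Mazur.Disc.exists_relation_unit_inv q)⟩

theorem jOne_mem_of_xN_mem {P : Place Qb (FN M q)} (h : xN M q ∈ P.toValuationSubring) :
    jOne M q ∈ P.toValuationSubring := by
  have h1 := poleDiv_xN M q P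
  rw [TwoComponent.poleDiv_eq_zero_of_mem _ h, FF.poleDiv_apply, FF.poleDiv_apply] at h1
  exact (Red.mem_place_iff P).mpr (by omega)

/-- The unit has no zero or pole off the cusps. -/
theorem ord_unitFN {P : Place Qb (FN M q)} (h : xN M q ∈ P.toValuationSubring) :
    P.ord (unitFN M q) = 0 := by
  have hmem : ∀ {z : FN M q}, IsIntegral (Algebra.adjoin Qb {jOne M q}) z →
      0 ≤ P.ord z := fun {z} hz => by
    rw [← Red.mem_place_iff]
    refine Red.mem_place_of_isIntegral P (RingHom.id _) (fun r => ?_) hz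
    obtain ⟨r, hr⟩ := r
    show r ∈ P.toValuationSubring
    induction hr using Algebra.adjoin_induction with
    | mem y hy => rw [Set.mem_singleton_iff.mp hy]; exact jOne_mem_of_xN_mem M q h
    | algebraMap c => exact P.algebraMap_mem' c
    | add a b _ _ ha hb => exact add_mem ha hb
    | mul a b _ _ ha hb => exact mul_mem ha hb
  have h1 := hmem (isIntegral_unitFN M q).1
  have h2 := hmem (isIntegral_unitFN M q).2
  rw [P.ord_inv] at h2
  omega

/-- The unit lies in a space of multiples of the polar divisor of `j`. -/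
theorem exists_unitFN_mem_space :
    ∃ n : ℕ, unitFN M q ∈ riemannRochSpace (n • FF.poleDiv (K := Qb) (xN M q)) := by
  obtain ⟨n, hn⟩ := exists_mem_rrSpace_of_mem_reg (K := Qb) (xN M q) (f := unitFN M q)
    fun P hP => (Red.mem_place_iff P).mpr (ord_unitFN M q hP).ge
  exact ⟨n, hn⟩

/-! ### reductions -/

variable {A : ValuationSubring (AlgebraicClosure ℚ)} {k : Type*} [Field k] {π : A →+* k}
variable [CharP k q] [IsAlgClosed k]

/-- The reduction of the unit on the first component. -/
theorem red_false_unitFN (hres : ResidueAt A q π) :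
    ∃ h : unitFN M q ∈ (redC M q hqM hres false).O,
      ((redC M q hqM hres false).red ⟨_, h⟩ : LaurentSeries k) = HeckeCompat.unitSer k q := by
  obtain ⟨h, hr⟩ := red_of_intSeries M q hqM hres (f := unitFN M q) (HeckeCompat.unitSer ℤ q)
    (by rw [HeckeCompat.coeffMap_unitSer, coe_unitFN])
  exact ⟨h, hr.trans (HeckeCompat.coeffMap_unitSer _ q)⟩

theorem unitSer_mul_inv (R : Type*) [CommRing R] :
    HeckeCompat.unitSer R q * (deltaSerInv R * qExpand R q (deltaSer R)) = 1 := by
  rw [HeckeCompat.unitSer, mul_mul_mul_comm, ← map_mul, deltaSer_mul_inv, mul_comm (deltaSerInv R),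
    deltaSer_mul_inv, map_one, mul_one]

/-- The reduction of the inverse of the unit on the first component. -/
theorem red_false_unitFN_inv (hres : ResidueAt A q π) :
    ∃ h : (unitFN M q)⁻¹ ∈ (redC M q hqM hres false).O,
      ((redC M q hqM hres false).red ⟨_, h⟩ : LaurentSeries k) = (HeckeCompat.unitSer k q)⁻¹ := by
  have e : ∀ (K : Type _) [Field K],
      (HeckeCompat.unitSer K q)⁻¹ = deltaSerInv K * qExpand K q (deltaSer K) := fun K _ =>
    inv_eq_of_mul_eq_one_right (unitSer_mul_inv q K)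
  have e' : (coeffMap (Int.castRingHom k)) (deltaSerInv ℤ * qExpand ℤ q (deltaSer ℤ)) =
      (HeckeCompat.unitSer k q)⁻¹ := by
    rw [inv_eq_of_mul_eq_one_right (unitSer_mul_inv q k), map_mul, coeffMap_deltaSerInv,
      coeffMap_qExpand, coeffMap_deltaSer]
  obtain ⟨h, hr⟩ := red_of_intSeries M q hqM hres (f := (unitFN M q)⁻¹)
    (deltaSerInv ℤ * qExpand ℤ q (deltaSer ℤ))
    (by rw [IntermediateField.coe_inv, coe_unitFN, e, map_mul, coeffMap_deltaSerInv,
      coeffMap_qExpand, coeffMap_deltaSer])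
  exact ⟨h, hr.trans e'⟩

/-- The scaling on the other component. -/
theorem red_true_unitFN (hres : ResidueAt A q π) :
    ∃ h : algebraMap Qb (FN M q) ((q : Qb) ^ 12)⁻¹ * unitFN M q ∈ (redC M q hqM hres true).O,
      ((redC M q hqM hres true).red ⟨_, h⟩ : LaurentSeries k) = (HeckeCompat.unitSer k q)⁻¹ := by
  obtain ⟨h, hr⟩ := red_false_unitFN_inv M q hqM hres
  obtain ⟨h', hr'⟩ := red_true_wAL M q hqM hres (f := (unitFN M q)⁻¹) h
  have hq0 : algebraMap Qb (FN M q) ((q : Qb) ^ 12) ≠ 0 :=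
    (map_ne_zero _).mpr (pow_ne_zero _ (Nat.cast_ne_zero.mpr hq.out.ne_zero))
  have e : wAL M q hqM (unitFN M q)⁻¹ =
      algebraMap Qb (FN M q) ((q : Qb) ^ 12)⁻¹ * unitFN M q := by
    rw [map_inv₀, wAL_unitFN_eq, mul_inv, inv_inv, map_inv₀]
  refine ⟨e ▸ h', Eq.trans ?_ hr⟩
  refine Eq.trans ?_ hr'
  exact congrArg (redPair M q hqM hres true).red (Subtype.ext e.symm)

end Fermat.Agent.LoweringAtP.Model
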