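import Fermat.Agent.LoweringAtP.Model.Numerics
import Fermat.Agent.LoweringAtP.Model.Rational
import Fermat.Agent.LoweringAtP.Model.UnitSeries
import Fermat.Agent.X0.Genus

/-!
# The orders of the reduced unit on a component

`Δ̄(τ)/Δ̄(qτ)` has order `(q - 1) ord j̄` at the poles of `j̄`, order `12` at every node and no
other zero or pole.
-/

noncomputable section

open ModularCurve AlgebraicCurve IntermediateField Fermat.Agent.Red Fermat.Agent.Igusa
  Fermat.Agent.TwoComponent

namespace Fermat.Agent.LoweringAtP.Model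

local notation "Qb" => AlgebraicClosure ℚ

/-! ### lowest terms -/

theorem order_eq_of_coeff {R : Type*} [Zero R] {x : HahnSeries ℤ R} {n : ℤ}
    (h : x.coeff n ≠ 0) (h0 : ∀ m < n, x.coeff m = 0) : x.order = n := by
  refine le_antisymm (HahnSeries.order_le_of_coeff_ne_zero h) (not_lt.mp fun hlt => ?_)
  have hx : x ≠ 0 := fun e => h (by rw [e]; rfl)
  exact HahnSeries.coeff_order_eq_zero.not.mpr hx (h0 _ hlt)

section Series

variable {k : Type*} [Field k]

theorem order_deltaSer : (deltaSer k).order = 1 :=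
  order_eq_of_coeff (by rw [deltaSer_coeff_one]; exact one_ne_zero)
    fun _ hm => deltaSer_coeff_of_lt hm

theorem order_deltaSerInv : (deltaSerInv k).order = -1 := by
  have h1 : deltaSer k ≠ 0 := left_ne_zero_of_mul_eq_one deltaSer_mul_inv
  have h2 : deltaSerInv k ≠ 0 := right_ne_zero_of_mul_eq_one deltaSer_mul_inv
  have h := HahnSeries.order_mul h1 h2
  rw [deltaSer_mul_inv, HahnSeries.order_one, order_deltaSer] at h
  omega

theorem order_unitSer (q : ℕ) [NeZero q] : (HeckeCompat.unitSer k q).order = 1 - (q : ℤ) := by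
  have h1 : deltaSer k ≠ 0 := left_ne_zero_of_mul_eq_one deltaSer_mul_inv
  have h2 : deltaSerInv k ≠ 0 := right_ne_zero_of_mul_eq_one deltaSer_mul_inv
  have hx : (deltaSerInv k).coeff (-1) ≠ 0 := by
    have := HahnSeries.coeff_order_eq_zero.not.mpr h2
    rwa [order_deltaSerInv] at this
  have h3 : (qExpand k q (deltaSerInv k)).order = -(q : ℤ) := by
    refine order_eq_of_coeff ?_ fun m hm => ?_
    · rw [show -(q : ℤ) = (q : ℤ) * -1 by ring, qExpand_coeff_mul]; exact hx
    · by_cases hd : (q : ℤ) ∣ m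
      · obtain ⟨d, rfl⟩ := hd
        rw [qExpand_coeff_mul]
        refine HahnSeries.coeff_eq_zero_of_lt_order ?_
        rw [order_deltaSerInv]
        have hq : (0 : ℤ) ≤ q := Int.natCast_nonneg q
        by_contra hge
        push Not at hge
        nlinarith
      · exact qExpand_coeff_of_not_dvd q _ hd
  rw [HeckeCompat.unitSer, HahnSeries.order_mul h1 ((map_ne_zero _).mpr h2), order_deltaSer, h3]
  ring

/-- A polynomial of degree `d` in `j` has order `-d` at the cusp. -/
theorem order_evalAt_jv {P : Polynomial k} (hP : P ≠ 0) :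
    (evalAt (jv (1 : kˣ) 1) P).order = -(P.natDegree : ℤ) := by
  refine order_eq_of_coeff ?_ fun m hm => ?_
  · have := coeff_evalAt_jv (K := k) one_ne_zero P
    rw [one_mul] at this
    rw [this]
    exact Polynomial.leadingCoeff_ne_zero.mpr hP
  · rw [evalAt, Polynomial.coe_eval₂RingHom, Polynomial.eval₂_eq_sum_range, HahnSeries.coeff_sum]
    refine Finset.sum_eq_zero fun i hi => ?_
    rw [Finset.mem_range] at hi
    rw [HahnSeries.C_mul_eq_smul, HahnSeries.coeff_smul, jv_one_pow_coeff_of_lt one_ne_zero,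
      smul_zero]
    push_cast
    omega

theorem algebraMap_evalAt {F : IntermediateField k (LaurentSeries k)} (z : F) (P : Polynomial k) :
    ((Polynomial.aeval z P : F) : LaurentSeries k) = evalAt (z : LaurentSeries k) P := by
  induction P using Polynomial.induction_on' with
  | add u v hu hv => rw [map_add, IntermediateField.coe_add, hu, hv, map_add]
  | monomial n c =>
    rw [Polynomial.aeval_monomial, ← Polynomial.C_mul_X_pow_eq_monomial, map_mul, map_pow,
      evalAt_C, evalAt_X, IntermediateField.coe_mul, IntermediateField.coe_pow]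
    congr 1
    show algebraMap k (LaurentSeries k) c = _
    rw [algebraMap_laurentSeries_eq_single, HahnSeries.C_apply]

end Series

/-! ### the order of a polynomial at a pole of its argument -/

/-- At a pole of `z` a polynomial of degree `n` in `z` has order `n` times that of `z`. -/
theorem ord_aeval_of_neg {K F : Type*} [Field K] [Field F] [Algebra K F] (v : Place K F) {z : F}
    (hz : v.ord z < 0) :
    ∀ (n : ℕ) (p : Polynomial K), p.natDegree = n → p ≠ 0 →
      Polynomial.aeval z p ≠ 0 ∧ v.ord (Polynomial.aeval z p) = (n : ℤ) * v.ord z := by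
  have hz0 : z ≠ 0 := fun e => by rw [e, v.ord_zero] at hz; exact lt_irrefl _ hz
  intro n
  induction n with
  | zero =>
    intro p hp hp0
    rw [Polynomial.eq_C_of_natDegree_eq_zero hp, Polynomial.aeval_C]
    have hc : p.coeff 0 ≠ 0 := fun e => hp0 (by
      rw [Polynomial.eq_C_of_natDegree_eq_zero hp, e, map_zero])
    refine ⟨(map_ne_zero _).mpr hc, ?_⟩
    rw [Nat.cast_zero, zero_mul]
    exact FF.ord_algebraMap v _
  | succ n ih =>
    intro p hp _
    have hd : p.divX.natDegree = n := by
      rw [Polynomial.natDegree_divX_eq_natDegree_tsub_one, hp]; rfl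
    have hd0 : p.divX ≠ 0 := fun e => by
      have := congrArg Polynomial.natDegree (Polynomial.divX_mul_X_add p)
      rw [e, zero_mul, zero_add, Polynomial.natDegree_C] at this
      omega
    obtain ⟨h1, h2⟩ := ih p.divX hd hd0
    have e : Polynomial.aeval z p =
        Polynomial.aeval z p.divX * z + algebraMap K F (p.coeff 0) := by
      conv_lhs => rw [← Polynomial.divX_mul_X_add p]
      simp
    have hne : Polynomial.aeval z p.divX * z ≠ 0 := mul_ne_zero h1 hz0
    have hord : v.ord (Polynomial.aeval z p.divX * z) = ((n : ℤ) + 1) * v.ord z := by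
      rw [v.ord_mul h1 hz0, h2]; ring
    have hlt : algebraMap K F (p.coeff 0) = 0 ∨
        v.ord (Polynomial.aeval z p.divX * z) < v.ord (algebraMap K F (p.coeff 0)) := by
      rcases eq_or_ne (p.coeff 0) 0 with h | h
      · exact Or.inl (by rw [h, map_zero])
      · refine Or.inr ?_
        rw [FF.ord_algebraMap v, hord]
        nlinarith [Int.natCast_nonneg n]
    rw [e, FF.ord_add_eq_of_lt v hne hlt, hord]
    exact ⟨FF.add_ne_zero_of_ord_lt v hne hlt, by push_cast; ring⟩

/-! ### the reduced unit -/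

variable (M q : ℕ) [hq : Fact q.Prime] [NeZero M] (hqM : ¬ q ∣ M)
variable {A : ValuationSubring (AlgebraicClosure ℚ)} {k : Type*} [Field k] {π : A →+* k}
variable [CharP k q] [IsAlgClosed k] (hres : ResidueAt A q π)

include hqM in
/-- The unit lies in the reduction ring of either component. -/
theorem unitFN_mem_O (i : Bool) : unitFN M q ∈ (redC M q hqM hres i).O := by
  cases i
  · exact (red_false_unitFN M q hqM hres).1
  · obtain ⟨h, -⟩ := red_true_unitFN M q hqM hres
    have hq0 : (q : Qb) ≠ 0 := Nat.cast_ne_zero.mpr hq.out.ne_zero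
    have e : unitFN M q = algebraMap Qb (FN M q) ((((q : A) ^ 12 : A)) : Qb) *
        (algebraMap Qb (FN M q) ((q : Qb) ^ 12)⁻¹ * unitFN M q) := by
      rw [SubmonoidClass.coe_pow, show ((q : A) : Qb) = (q : Qb) from map_natCast A.subtype q,
        ← mul_assoc, ← map_mul, mul_inv_cancel₀ (pow_ne_zero _ hq0), map_one, one_mul]
    rw [e]
    exact mul_mem ((redC M q hqM hres true).algebraMap_mem _) h

/-- The reduction of the unit at infinity. -/
def unitBarC : CK M k :=
  (redC M q hqM hres false).red ⟨unitFN M q, unitFN_mem_O M q hqM hres false⟩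

theorem coe_unitBarC : (unitBarC M q hqM hres : LaurentSeries k) = HeckeCompat.unitSer k q :=
  (red_false_unitFN M q hqM hres).2

theorem unitBarC_ne_zero : unitBarC M q hqM hres ≠ 0 := fun h =>
  HeckeCompat.unitSer_ne_zero (k := k) q ((coe_unitBarC M q hqM hres).symm.trans
    (congrArg Subtype.val h))

theorem frobC_smul_unitBarC :
    frobC M q (k := k) • unitBarC M q hqM hres = unitBarC M q hqM hres := by
  refine Subtype.ext ?_
  rw [frobC, EichlerShimura.coe_coeffSemilinear_smul, coe_unitBarC, HeckeCompat.coeffMap_unitSer]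

/-- The reduced unit has no pole where the coordinate is finite. -/
theorem unitBarC_reg {Q : Place k (CK M k)}
    (hQ : (xbC M q : CK M k) ∈ Q.toValuationSubring) :
    0 ≤ Q.ord (unitBarC M q hqM hres) := by
  obtain ⟨n, hn⟩ := exists_unitFN_mem_space M q
  have h := redC_mem_space M q hqM hres (unitFN_mem_O M q hqM hres) hn false
  exact (FF.mem_iff_ord_nonneg Q).mp
    (mem_reg_of_mem_rrSpace (n := n) _ (by rw [natCast_zsmul]; exact h) Q hQ)

omit hq [NeZero M] [CharP k q] [IsAlgClosed k] in
theorem xbC_mem_iff (Q : Place k (CK M k)) :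
    (xbC M q : CK M k) ∈ Q.toValuationSubring ↔ (jbC M : CK M k) ∈ Q.toValuationSubring := by
  rw [FF.mem_iff_ord_nonneg, FF.mem_iff_ord_nonneg, xbC, FF.ord_pow]
  push_cast
  have : (0 : ℤ) < (q : ℤ) + 1 := by positivity
  exact ⟨fun h => nonneg_of_mul_nonneg_right h this, fun h => mul_nonneg this.le h⟩

/-- At the poles of `j̄` the reduced unit is `j̄ ^ (q - 1)`. -/
theorem ord_unitBarC_of_pole {Q : Place k (CK M k)}
    (hQ : (jbC M : CK M k) ∉ Q.toValuationSubring) :
    Q.ord (unitBarC M q hqM hres) = ((q : ℤ) - 1) * Q.ord (jbC M : CK M k) := by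
  have hq1 : ¬ q ∣ 1 := fun h => hq.out.ne_one (Nat.dvd_one.mp h)
  obtain ⟨h1, hr1⟩ := red_false_unitFN 1 q hq1 hres
  have hmem : HeckeCompat.unitSer k q ∈ k⟮jv (1 : kˣ) 1⟯ := by
    rw [← full_one, ← hr1]
    exact ((redC 1 q hq1 hres false).red ⟨_, h1⟩).2
  obtain ⟨r, s, hrs⟩ := (IntermediateField.mem_adjoin_simple_iff k _).mp hmem
  have hev : ∀ p : Polynomial k,
      Polynomial.aeval (jv (1 : kˣ) 1) p = evalAt (jv (1 : kˣ) 1) p := fun p => by
    induction p using Polynomial.induction_on' with
    | add u v hu hv => rw [map_add, map_add, hu, hv]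
    | monomial n c =>
      rw [Polynomial.aeval_monomial, ← Polynomial.C_mul_X_pow_eq_monomial, map_mul, map_pow,
        evalAt_C, evalAt_X, algebraMap_laurentSeries_eq_single, HahnSeries.C_apply]
  have hu0 := HeckeCompat.unitSer_ne_zero (k := k) q
  rw [hev, hev] at hrs
  have hs0 : s ≠ 0 := fun e => hu0 (by rw [hrs, e, map_zero, div_zero])
  have hr0 : r ≠ 0 := fun e => hu0 (by rw [hrs, e, map_zero, zero_div])
  have hS : evalAt (jv (1 : kˣ) 1) s ≠ 0 :=
    (map_ne_zero_iff _ (evalAt_jv_injective one_ne_zero)).mpr hs0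
  have hR : evalAt (jv (1 : kˣ) 1) r = HeckeCompat.unitSer k q * evalAt (jv (1 : kˣ) 1) s := by
    rw [hrs, div_mul_cancel₀ _ hS]
  have hdeg := congrArg HahnSeries.order hR
  rw [HahnSeries.order_mul hu0 hS, order_unitSer, order_evalAt_jv hr0, order_evalAt_jv hs0] at hdeg
  have hz : Q.ord (jbC M : CK M k) < 0 := by
    rw [FF.mem_iff_ord_nonneg] at hQ; omega
  obtain ⟨hr', er⟩ := ord_aeval_of_neg Q hz _ r rfl hr0
  obtain ⟨hs', es⟩ := ord_aeval_of_neg Q hz _ s rfl hs0
  have e : unitBarC M q hqM hres =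
      Polynomial.aeval (jbC M : CK M k) r / Polynomial.aeval (jbC M : CK M k) s := by
    refine Subtype.ext ?_
    rw [IntermediateField.coe_div, algebraMap_evalAt, algebraMap_evalAt, coe_unitBarC]
    exact hrs
  rw [e, FF.ord_div Q hr' hs', er, es, ← sub_mul]
  congr 1
  omega

variable (hgen : genusFF Qb (modularFunctionFieldBar M) ≤ genusFF k (CK M k))

/-- The nodes, on one component. -/
abbrev nodeFin : Finset (Place k (CK M k)) :=
  (graphAlg M q hqM hres hgen).nodeSet_finite.toFinset

open scoped Classical in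
/-- The upper bound off the poles: `12` at a node, `0` elsewhere. -/
theorem ord_unitBarC_le {b : Place k (CK M k)}
    (hb : (xbC M q : CK M k) ∈ b.toValuationSubring) :
    b.ord (unitBarC M q hqM hres) ≤ if b ∈ (nodeFin M q hqM hres hgen) then 12 else 0 := by
  set G := graphAlg M q hqM hres hgen with hG
  set S : Finset (Place k (CK M k)) := insert b (nodeFin M q hqM hres hgen) with hS
  obtain ⟨g, hgR, hg0, hgb, hge⟩ := exists_reg_ord (transcendental_xbC M q) S
    (fun x hx => by
      rcases Finset.mem_insert.mp hx with rfl | hx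
      · exact hb
      · exact (Set.Finite.mem_toFinset _ |>.mp hx).1)
    (fun x => if x ∈ (nodeFin M q hqM hres hgen) then 1 else 0) (Finset.mem_insert_self b _)
  have himg : (g, (0 : CK M k)) ∈ G.Img := by
    refine (G.mem_iff g 0).mpr ⟨hgR, zero_mem _, fun y hy => ?_⟩
    have hy' : y ∈ (nodeFin M q hqM hres hgen) := (Set.Finite.mem_toFinset _).mpr hy
    have h1 := hge y (Finset.mem_insert_of_mem hy')
    rw [if_pos hy'] at h1
    rw [val_zero, val_eq_zero_iff y (hgR y hy.1), FF.mem_poleLe]
    push_cast at h1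
    exact Or.inr (by omega)
  obtain ⟨n, u, hmem, hu, huw⟩ := (mem_imgC M q hqM hres).mp himg
  let Q := modelRatRed hqM hres hgen
  set V := riemannRochSpace (n • FF.poleDiv (K := Qb) (xN M q)) with hV
  have : FiniteDimensional Qb V := FF.finite_rrSpace _
  have hspan : Q.Spanned V := rrSpace_le_span fun σ _ => by
    rw [smul_comm, galFN_smul_poleDiv]
  have hpair : (fun i : Bool => bif i then (0 : CK M k) else g) ∈
      pairImage (redC M q hqM hres) (fun i => (Q.p : Qb) ^ ((fun _ => (0 : ℤ)) i)) V := by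
    refine ⟨u, hu, fun i => ⟨⟨u, hmem i⟩, by simp, ?_⟩⟩
    cases i
    · exact (congrArg Prod.fst huw).symm
    · exact (congrArg Prod.snd huw).symm
  have hrat := Q.ratImage_eq (fun _ => (0 : ℤ)) hspan
  obtain ⟨w, hwV, hw0, hwv⟩ := hrat.symm.le hpair
  obtain ⟨v0, hv0, hr0⟩ : ∃ v : (redC M q hqM hres false).O,
      algebraMap Qb (FN M q) ((Q.p : Qb) ^ (0 : ℤ)) * (v : FN M q) = w ∧
        (redC M q hqM hres false).red v = g := hwv false
  obtain ⟨v1, hv1, hr1⟩ := hwv true
  simp only [zpow_zero, map_one, one_mul] at hv0 hv1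
  obtain ⟨v', -, hv'⟩ := Q.one_le_of_red_eq_zero (i := true) hr1 (hv1 ▸ hw0)
  have hU0 := unitFN_ne_zero M q
  obtain ⟨hi0, hri0⟩ := red_false_unitFN_inv M q hqM hres
  obtain ⟨hw1, -⟩ := red_true_wAL M q hqM hres (red_false_unitFN M q hqM hres).1
  set Z : FN M q := w ^ 12 * (unitFN M q)⁻¹ with hZ
  have hZO : ∀ i, Z ∈ (redC M q hqM hres i).O := fun i => by
    cases i
    · rw [hZ, ← hv0]
      exact mul_mem (pow_mem v0.2 _) hi0
    · have e : Z = (v' : FN M q) ^ 12 * wAL M q hqM (unitFN M q) := by
        rw [wAL_unitFN_eq, hZ, ← hv1, hv', Subring.coe_mul, RedBase.coe_ι, mul_pow, ← map_pow,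
          show ((Q.p : A) : Qb) = (q : Qb) from map_natCast A.subtype q]
        ring
      rw [e]
      exact mul_mem (pow_mem v'.2 _) hw1
  obtain ⟨m, hm⟩ := exists_mem_rrSpace_of_mem_reg (K := Qb) (xN M q) (f := Z) fun P hP => by
    rcases eq_or_ne w 0 with h0 | h0
    · rw [hZ, h0, zero_pow (by norm_num), zero_mul]; exact zero_mem _
    have h1 : w ∈ P.toValuationSubring :=
      mem_reg_of_mem_rrSpace (n := n) _ (by rw [natCast_zsmul]; exact hwV) P hP
    rw [FF.mem_iff_ord_nonneg] at h1 ⊢
    rw [hZ, P.ord_mul (pow_ne_zero _ h0) (inv_ne_zero hU0), FF.ord_pow, P.ord_inv,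
      ord_unitFN M q hP]
    omega
  rw [natCast_zsmul] at hm
  have hreg := mem_reg_of_mem_rrSpace (n := m) _
    (by rw [natCast_zsmul]; exact redC_mem_space M q hqM hres hZO hm false) b hb
  have hredZ : (redC M q hqM hres false).red ⟨Z, hZO false⟩ =
      g ^ 12 * (unitBarC M q hqM hres)⁻¹ := by
    have e : (⟨Z, hZO false⟩ : (redC M q hqM hres false).O) = v0 ^ 12 * ⟨_, hi0⟩ :=
      Subtype.ext (by rw [Subring.coe_mul, SubmonoidClass.coe_pow, hv0])
    rw [e, map_mul, map_pow]
    refine congrArg₂ _ (congrArg (· ^ 12) hr0) (Subtype.ext (hri0.trans ?_))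
    rw [IntermediateField.coe_inv, coe_unitBarC]
  rw [hredZ, FF.mem_iff_ord_nonneg,
    b.ord_mul (pow_ne_zero _ hg0) (inv_ne_zero (unitBarC_ne_zero M q hqM hres)), FF.ord_pow,
    b.ord_inv, hgb] at hreg
  split_ifs at hreg ⊢ <;> push_cast at hreg <;> omega

include hgen in
/-- The mass formula without elliptic points: `12 * #nodes = (q - 1) * ψ M`. -/
theorem card_nodes (hell : NoEll M) :
    12 * (((nodeFin M q hqM hres hgen)).card : ℤ) = ((q : ℤ) - 1) * psi M := by
  have hdeg := sameDegree_CK M q (k := k) hqM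
  set D := gaussData (A := A) (N := M) hres.surj hdeg with hD
  have hdk : Module.finrank (k⟮D.ρ D.x⟯) (CK M k) = D.d := rfl
  have hg := (D.genus_eq_and_latticeSurj hdk hgen).1
  have h := genus_eq_nodes M q hqM hres hgen
  rw [← hg, nodesC, Finset.card_map] at h
  have : NeZero (M * q) := ⟨mul_ne_zero (NeZero.ne M) hq.out.ne_zero⟩
  have hN : ((genusFF Qb (FN M q) : ℕ) : ℚ) = genusFormula (M * q) := X0.genusFF_bar _
  have hM : ((genusFF Qb (modularFunctionFieldBar M) : ℕ) : ℚ) = genusFormula M := X0.genusFF_bar _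
  have hn := genusFormula_mul_prime (NeZero.ne M) hell hq.out hqM
  have hQ : (genusFF Qb (FN M q) : ℚ) + 1 =
      2 * (genusFF Qb (modularFunctionFieldBar M) : ℚ) +
        ((nodeFin M q hqM hres hgen)).card := by exact_mod_cast h
  rw [← hN, ← hM] at hn
  have hc : (12 : ℚ) * ((nodeFin M q hqM hres hgen)).card = ((q : ℚ) - 1) * psi M := by
    rw [← hn]; linarith
  exact_mod_cast hc

/-- There is a node. -/
theorem nonempty_node (hell : NoEll M) : Nonempty (Node M q hqM hres hgen) := by
  obtain ⟨y, hy⟩ : (nodeFin M q hqM hres hgen).Nonempty := by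
    rw [← Finset.card_pos]
    have hc := card_nodes M q hqM hres hgen hell
    have hψ : (0 : ℤ) < psi M := by exact_mod_cast psi_pos M
    have hq1 : (1 : ℤ) < q := by exact_mod_cast hq.out.one_lt
    by_contra h0
    rw [Nat.eq_zero_of_not_pos h0] at hc
    push_cast at hc
    nlinarith
  exact ⟨⟨_, (mem_nodesC M q hqM hres hgen).mpr ⟨y, (Set.Finite.mem_toFinset _).mp hy, rfl⟩⟩⟩

include hgen in
/-- **The orders at the nodes.** -/
theorem ord_unitBarC_node (hell : NoEll M) {b : Place k (CK M k)}
    (hb : b ∈ (graphAlg M q hqM hres hgen).nodeSet) :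
    b.ord (unitBarC M q hqM hres) = 12 := by
  classical
  set u := unitBarC M q hqM hres with hu
  have hD : FF.divOf (K := k) u =
      -(((q : ℤ) - 1) • FF.poleDiv (K := k) (jbC M : CK M k)) +
        ∑ y ∈ (nodeFin M q hqM hres hgen), Finsupp.single y (y.ord u) := by
    ext Q
    rw [Finsupp.add_apply, Finsupp.neg_apply, Finsupp.smul_apply, Finsupp.finsetSum_apply,
      FF.divOf_apply, FF.poleDiv_apply]
    simp only [Finsupp.single_apply, Finset.sum_ite_eq', smul_eq_mul]
    by_cases hj : (jbC M : CK M k) ∈ Q.toValuationSubring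
    · have hx := (xbC_mem_iff M q Q).mpr hj
      have h0 := unitBarC_reg M q hqM hres hx
      have h1 := ord_unitBarC_le M q hqM hres hgen hx
      rw [FF.mem_iff_ord_nonneg] at hj
      rw [← hu] at h0 h1
      rw [max_eq_right (by omega : -Q.ord (jbC M : CK M k) ≤ 0), mul_zero, neg_zero, zero_add]
      split_ifs at h1 ⊢ <;> omega
    · have hn : Q ∉ (nodeFin M q hqM hres hgen) := fun h =>
        hj ((xbC_mem_iff M q Q).mp ((Set.Finite.mem_toFinset _).mp h).1)
      rw [if_neg hn, ord_unitBarC_of_pole M q hqM hres hj, add_zero]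
      rw [FF.mem_iff_ord_nonneg] at hj
      rw [max_eq_left (by omega : (0 : ℤ) ≤ -Q.ord (jbC M : CK M k))]
      ring
  have hdeg := congrArg Divisor.degree hD
  have hsingle : ∀ (y : Place k (CK M k)) (c : ℤ), Divisor.degree (Finsupp.single y c) = c :=
    fun y c => by rw [FF.degree_eq_sum, Finsupp.sum_single_index rfl]
  rw [FF.degree_divOf, map_add, map_neg, map_zsmul, degree_poleDiv_jbC M q hqM, map_sum] at hdeg
  simp only [hsingle, smul_eq_mul] at hdeg
  have hcard := card_nodes M q hqM hres hgen hell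
  have hle : ∀ y ∈ (nodeFin M q hqM hres hgen), y.ord u ≤ 12 := fun y hy => by
    have := ord_unitBarC_le M q hqM hres hgen (b := y) ((Set.Finite.mem_toFinset _).mp hy).1
    rwa [if_pos hy] at this
  have hsum : ∑ y ∈ (nodeFin M q hqM hres hgen), y.ord u =
      ∑ y ∈ (nodeFin M q hqM hres hgen), (12 : ℤ) := by
    rw [Finset.sum_const, nsmul_eq_mul]
    linarith
  exact (Finset.sum_eq_sum_iff_of_le hle).mp hsum b ((Set.Finite.mem_toFinset _).mpr hb)

include hgen in
/-- The reduced unit has order `12` at the Frobenius image of a supersingular point. -/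
theorem ord_unitBarC_node_image (hell : NoEll M) {b : Place k (CK M k)}
    (hb : b ∈ (graphAlg M q hqM hres hgen).nodeSet) :
    (frobC M q (k := k) • b).ord (unitBarC M q hqM hres) = 12 := by
  rw [← ord_unitBarC_node M q hqM hres hgen hell hb]
  conv_lhs => rw [← frobC_smul_unitBarC M q hqM hres, SemilinearAut.ord_smul]

include hgen in
/-- No other zero off the poles of `j̄`. -/
theorem ord_unitBarC_of_not_node {b : Place k (CK M k)}
    (hb : (xbC M q : CK M k) ∈ b.toValuationSubring)
    (hn : b ∉ (graphAlg M q hqM hres hgen).nodeSet) :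
    b.ord (unitBarC M q hqM hres) = 0 := by
  classical
  have h := ord_unitBarC_le M q hqM hres hgen hb
  rw [if_neg (fun h => hn ((Set.Finite.mem_toFinset _).mp h))] at h
  exact le_antisymm h (unitBarC_reg M q hqM hres hb)

end Fermat.Agent.LoweringAtP.Model
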